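import Fermat.Agent.S48.ModL.F.Main
import Fermat.Agent.S48.ModL.Top

/-!
# S48 / MODL / F : the diamond operators on the function field and on the Jacobian of `Y`

For `p` prime to `M`: `sP p ∈ Γ₀(M²)` with lower right entry `≡ p` mod `M`, `sP' p = δ (sP p) δ⁻¹`,
`dia p = rho (sP' p)` as a semilinear automorphism, `Dm p x = dia p • x` on the Jacobian.
-/

set_option autoImplicit false

open UpperHalfPlane hiding I
open Function ModularCurve CongruenceSubgroup IntermediateField AlgebraicCurve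
open scoped Manifold MatrixGroups
open Fermat.Agent.S24 Fermat.Agent.GAL

namespace Fermat.Agent.S48.ModL.F

open Y

noncomputable section

variable (M : ℕ) [NeZero M] (hM : 2 < M) (hM4 : ¬ M ∣ 4)

theorem exists_sP (p : ℕ) : ∃ s s' : SL(2, ℤ), (Nat.Coprime p M → s ∈ Gamma0 (M ^ 2) ∧
    ((s 1 1 : ℤ) : ZMod M) = p) ∧ ∀ τ : ℍ, scal M (s • τ) = s' • scal M τ := by
  by_cases hp : Nat.Coprime p M
  · obtain ⟨s, hs, hsp⟩ := EC.exists_diamond_rep (M := M) p hp
    obtain ⟨s', -, -, hc⟩ := exists_conj_of_mem_Gamma0_sq M s hs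
    exact ⟨s, s', fun _ => ⟨hs, hsp⟩, hc⟩
  · exact ⟨1, 1, fun h => absurd h hp, fun τ => by simp⟩

/-- an element of `Γ₀(M²)` with lower right entry `≡ p` mod `M`. -/
def sP (p : ℕ) : SL(2, ℤ) := (exists_sP M p).choose

/-- `δ (sP p) δ⁻¹`. -/
def sP' (p : ℕ) : SL(2, ℤ) := (exists_sP M p).choose_spec.choose

theorem sP_mem {p : ℕ} (hp : Nat.Coprime p M) : sP M p ∈ Gamma0 (M ^ 2) :=
  ((exists_sP M p).choose_spec.choose_spec.1 hp).1

theorem sP_entry {p : ℕ} (hp : Nat.Coprime p M) : ((sP M p 1 1 : ℤ) : ZMod M) = p :=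
  ((exists_sP M p).choose_spec.choose_spec.1 hp).2

theorem sP_conj (p : ℕ) (τ : ℍ) : scal M (sP M p • τ) = sP' M p • scal M τ :=
  (exists_sP M p).choose_spec.choose_spec.2 τ

/-- the diamond operator on the function field. -/
def dia (p : ℕ) : SemilinearAut Kb ((lvlY M hM).FKf Kb) :=
  SemilinearAut.ofAlgAut (rho M hM hM4 (sP' M p))

theorem dia_smul (p : ℕ) (u : (lvlY M hM).FK Kb) :
    dia M hM hM4 p • u = rho M hM hM4 (sP' M p) u := rfl

theorem dia_smul_eq_toGF (p : ℕ) (u : (lvlY M hM).FK Kb) :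
    dia M hM hM4 p • u = toGF M hM hM4 (sP' M p) • u := rfl

theorem th_dia (p : ℕ) (u : (lvlY M hM).FK Kb) :
    th M hM (dia M hM hM4 p • u) = actMer (sP M p) (th M hM u) :=
  th_rho_of_conj M hM hM4 (sP_conj M p) u

theorem dia_zK {p : ℕ} (hp : Nat.Coprime p M) (a b : ZMod M) :
    dia M hM hM4 p • zK M hM a b = zK M hM ((p : ZMod M) * a) ((p : ZMod M) * b) := by
  rw [dia_smul, rho_zK_of_conj M hM hM4 (sP_mem M hp) (sP_conj M p), sP_entry M hp]

theorem dia_genK_inl {p : ℕ} (hp : Nat.Coprime p M) (d : {d : ℕ // d ∈ (M ^ 2).divisors}) :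
    dia M hM hM4 p • (lvlY M hM).genK Kb (Sum.inl d) = (lvlY M hM).genK Kb (Sum.inl d) := by
  rw [dia_smul, rho_genK_inl_of_conj M hM hM4 (sP_mem M hp) (sP_conj M p)]

theorem galois_genK (σ : Kb ≃ₐ[ℚ] Kb) (i : (lvlY M hM).ι) :
    arithmeticGalois (lvlY M hM).F₀ σ • (lvlY M hM).genK Kb i = (lvlY M hM).genK Kb i := by
  apply Subtype.ext
  rw [coe_arithmeticGalois_smul, Lvl.coe_genK, coeffEmb, coeffMap_coeffMap]
  exact coeffMap_congr (RingHom.ext fun r => by simp) _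

/-- the diamonds commute with the Galois action. -/
theorem dia_comm {p : ℕ} (hp : Nat.Coprime p M) (σ : Kb ≃ₐ[ℚ] Kb) :
    dia M hM hM4 p * arithmeticGalois (lvlY M hM).F₀ σ =
      arithmeticGalois (lvlY M hM).F₀ σ * dia M hM hM4 p := by
  set δ := dia M hM hM4 p with hδ
  set s := arithmeticGalois (lvlY M hM).F₀ σ with hs
  have hgen : ∀ i, ∃ j, δ • (lvlY M hM).genK Kb i = (lvlY M hM).genK Kb j := by
    rintro (d | x)
    · exact ⟨_, dia_genK_inl M hM hM4 hp d⟩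
    · exact ⟨_, dia_zK M hM hM4 hp x.1 x.2⟩
  have key : (SemilinearAut.toRingAut (δ * s)).toRingHom =
      (SemilinearAut.toRingAut (s * δ)).toRingHom := by
    apply (lvlY M hM).ringHom_ext_fk
    · intro a
      show δ • s • algebraMap Kb ((lvlY M hM).FK Kb) a = s • δ • algebraMap Kb ((lvlY M hM).FK Kb) a
      rw [SemilinearAut.smul_algebraMap, SemilinearAut.smul_algebraMap,
        SemilinearAut.smul_algebraMap, SemilinearAut.smul_algebraMap]
      rfl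
    · intro i
      show δ • s • (lvlY M hM).genK Kb i = s • δ • (lvlY M hM).genK Kb i
      obtain ⟨j, hj⟩ := hgen i
      rw [hs, galois_genK, hj, galois_genK]
  refine Subtype.ext (Prod.ext (RingEquiv.ext fun x => ?_) ?_)
  · exact congrArg (fun φ : (lvlY M hM).FK Kb →+* (lvlY M hM).FK Kb => φ x) key
  · show SemilinearAut.baseAut (δ * s) = SemilinearAut.baseAut (s * δ)
    rw [SemilinearAut.baseAut_mul, SemilinearAut.baseAut_mul, hδ, dia,
      SemilinearAut.baseAut_ofAlgAut, one_mul, mul_one]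

/-- the diamond operator on the Jacobian. -/
def Dm (p : ℕ) : (lvlY M hM).Jac →+ (lvlY M hM).Jac :=
  DistribSMul.toAddMonoidHom _ (dia M hM hM4 p)

theorem Dm_apply (p : ℕ) (x : (lvlY M hM).Jac) : Dm M hM hM4 p x = dia M hM hM4 p • x := rfl

theorem galD {p : ℕ} (hp : Nat.Coprime p M) (σ : Kb ≃ₐ[ℚ] Kb) (x : (lvlY M hM).Jac) :
    σ • Dm M hM hM4 p x = Dm M hM hM4 p (σ • x) := by
  rw [Dm_apply, Dm_apply, galois_smul_pic0_def, galois_smul_pic0_def, ← mul_smul, ← mul_smul,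
    dia_comm M hM hM4 hp]

/-- (K3) for the diamonds. -/
theorem isKummer_Dm {p : ℕ} (hp : Nat.Coprime p M) (ℓ : ℕ) (χ χ' : GY M →* ℂˣ)
    (x : (lvlY M hM).Jac) (hx : IsKummer (lvlY M hM) ℓ χ x) (hχ : IsConjChar (sP M p) χ χ') :
    IsKummer (lvlY M hM) ℓ χ' (Dm M hM hM4 p x) := by
  obtain ⟨D, u, h, hu0, hdiv, hth, hchar, rfl⟩ := hx
  set δ := dia M hM hM4 p with hδ
  refine ⟨SemilinearAut.degZeroSMulHom δ D, δ • u, actMer (sP M p) h, ?_, ?_, ?_, ?_, ?_⟩
  · simpa using hu0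
  · intro v
    rw [SemilinearAut.coe_degZeroSMulHom, SemilinearAut.divisor_smul_apply, ← hdiv]
    have h1 := SemilinearAut.ord_smul δ (δ⁻¹ • v) u
    rw [smul_inv_smul] at h1
    exact h1
  · rw [th_dia, hth, map_pow]
  · intro γ
    have hmem : (sP M p)⁻¹ * (γ : SL(2, ℤ)) * sP M p ∈ GY M := by
      have := EC.conj_mem_GY (M := M) (inv_mem (sP_mem M hp)) γ.2
      rwa [inv_inv] at this
    have h1 : actMer ((sP M p)⁻¹ * (γ : SL(2, ℤ)) * sP M p) h =
        algebraMap ℂ Mer ((χ ⟨_, hmem⟩ : ℂˣ) : ℂ) * h := hchar ⟨_, hmem⟩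
    have h2 : χ' γ = χ ⟨_, hmem⟩ := hχ γ ⟨_, hmem⟩ rfl
    have e : (γ : SL(2, ℤ)) * sP M p = sP M p * ((sP M p)⁻¹ * (γ : SL(2, ℤ)) * sP M p) := by
      group
    calc actMer (γ : SL(2, ℤ)) (actMer (sP M p) h)
        = actMer ((γ : SL(2, ℤ)) * sP M p) h := by rw [map_mul, AlgEquiv.mul_apply]
      _ = actMer (sP M p) (actMer ((sP M p)⁻¹ * (γ : SL(2, ℤ)) * sP M p) h) := by
          rw [e, map_mul, AlgEquiv.mul_apply]
      _ = algebraMap ℂ Mer ((χ' γ : ℂˣ) : ℂ) * actMer (sP M p) h := by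
          rw [h1, map_mul, AlgEquiv.commutes, h2]
  · rfl

theorem k3D (ℓ : ℕ) : K3D M hM ℓ (Dm M hM hM4) := by
  intro p hp hpM
  have hc : Nat.Coprime p M := (Nat.Prime.coprime_iff_not_dvd hp).2 hpM
  exact ⟨sP M p, sP_mem M hc, sP_entry M hc, fun χ χ' x hx hχ =>
    isKummer_Dm M hM hM4 hc ℓ χ χ' x hx hχ⟩

end

end Fermat.Agent.S48.ModL.F
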