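import Fermat.Agent.S48.ModL.F.Cj
import Fermat.Agent.GAL.Sup.K1a

/-!
# S48 / MODL / F, WP [F-YK]: the elements `JK`, `JpK`, `zK a b`, `yK a` of the function field of `Y` over `Qbar`

`th = (lvlY M hM).thetaK iotaK`.  `zetK ∈ Qbar` is the root of unity with `iotaK zetK = e(1/M)`, `zpK x = zetK ^ x`, `x ∈ ℤ/M`.
`yK a = ∑_b ζ^(a₁ b) zK a₀ b` is the Igusa family: `th (yK a) = holG a` (`Y.holG_eq_sum`).
All identities in the function field follow from the corresponding identities in `Hol` (`Y/EisAn.lean`, `Y/Pack.lean`) and the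
injectivity of `th`.
SEPARATION (`eq_or_eq_neg_of_yK_eq`): compare the coefficients of `t^(1-M)`:  by `Y.coeff_genZ` (`n = 1 < M`) and `Y.zCoeff_one` the
coefficient of `yK a` is `[a₀ = 1] ζ^(a₁) + [a₀ = -1] ζ^(-a₁)` (`1 ≠ -1` in `ℤ/M` as `M > 2`); for `a = (1,x)` it is `ζ^x ≠ 0`.
-/

set_option autoImplicit false

open UpperHalfPlane hiding I
open Function ModularCurve CongruenceSubgroup
open scoped Manifold MatrixGroups
open Fermat.Agent.S24 Fermat.Agent.GAL

namespace Fermat.Agent.S48.ModL.F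

open Y

noncomputable section

variable (M : ℕ) [NeZero M]

theorem exists_zetK : ∃ w : Kb, iotaK w = zet M 1 := by
  apply exists_iotaK_eq
  have h1 : IsIntegral ℤ (zet M 1) :=
    (isPrimitiveRoot_zet_one M).isIntegral (Nat.pos_of_ne_zero (NeZero.ne M))
  exact (h1.tower_top (A := ℚ)).isAlgebraic

/-- the primitive `M`-th root of unity of `Qbar` mapping to `e(1/M)`. -/
def zetK : Kb := (exists_zetK M).choose

theorem iotaK_zetK : iotaK (zetK M) = zet M 1 := (exists_zetK M).choose_spec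

theorem isPrimitiveRoot_zetK : IsPrimitiveRoot (zetK M) M := by
  have hinj : Injective iotaK := iotaK.toRingHom.injective
  rw [← IsPrimitiveRoot.map_iff_of_injective hinj, iotaK_zetK]
  exact isPrimitiveRoot_zet_one M

/-- `ζ^x`, `x ∈ ℤ/M`. -/
def zpK (x : ZMod M) : Kb := zetK M ^ x.val

theorem iotaK_zpK (x : ZMod M) : iotaK (zpK M x) = zet M x := by
  rw [zpK, map_pow, iotaK_zetK]
  unfold zet
  rw [← AddChar.map_nsmul_eq_pow, nsmul_eq_mul, mul_one, ZMod.natCast_zmod_val]

theorem zpK_zero : zpK M 0 = 1 := by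
  rw [zpK, ZMod.val_zero, pow_zero]

theorem zpK_add (x y : ZMod M) : zpK M (x + y) = zpK M x * zpK M y := by
  apply iotaK.toRingHom.injective
  show iotaK _ = iotaK _
  rw [map_mul, iotaK_zpK, iotaK_zpK, iotaK_zpK, zet_add]

theorem zpK_ne_zero (x : ZMod M) : zpK M x ≠ 0 :=
  pow_ne_zero _ ((isPrimitiveRoot_zetK M).ne_zero (NeZero.ne M))

theorem zpK_injective : Injective (zpK M) := by
  intro x y h
  apply zet_injective M
  rw [← iotaK_zpK, ← iotaK_zpK, h]

/-- `zetK` as a unit. -/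
def zetKu : Kbˣ := Units.mk0 (zetK M) ((isPrimitiveRoot_zetK M).ne_zero (NeZero.ne M))

variable (hM : 2 < M)

/-- the embedding of the function field of `Y` over `Qbar` in `Mer`. -/
abbrev th : (lvlY M hM).FK Kb →+* Mer := (lvlY M hM).thetaK iotaK.toRingHom

/-- the index of `j(d τ)`. -/
def idxJ (d : ℕ) (hd : d ∣ M ^ 2) : Idx M :=
  Sum.inl ⟨d, Nat.mem_divisors.mpr ⟨hd, pow_ne_zero 2 (NeZero.ne M)⟩⟩

/-- `J = j(M τ)`. -/
def JK : (lvlY M hM).FK Kb := (lvlY M hM).genK Kb (idxJ M M (Dvd.intro_left M (by ring)))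

/-- `J' = j(M² τ)`. -/
def JpK : (lvlY M hM).FK Kb := (lvlY M hM).genK Kb (idxJ M (M ^ 2) dvd_rfl)

/-- the rational Eisenstein generators. -/
def zK (a b : ZMod M) : (lvlY M hM).FK Kb := (lvlY M hM).genK Kb (Sum.inr (a, b))

/-- the Igusa family. -/
def yK (a : Fin 2 → ZMod M) : (lvlY M hM).FK Kb :=
  ∑ b : ZMod M, algebraMap Kb _ (zpK M (a 1 * b)) * zK M hM (a 0) b

theorem th_JK : th M hM (JK M hM) = jMer M := by
  exact ((lvlY M hM).thetaK_genK iotaK.toRingHom _).trans rfl

theorem th_JpK : th M hM (JpK M hM) = jMer (M ^ 2) := by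
  exact ((lvlY M hM).thetaK_genK iotaK.toRingHom _).trans rfl

theorem th_zK (a b : ZMod M) : th M hM (zK M hM a b) = algebraMap Hol Mer (holZ M a b) := by
  exact ((lvlY M hM).thetaK_genK iotaK.toRingHom _).trans rfl

theorem th_algebraMap (c : Kb) :
    th M hM (algebraMap Kb _ c) = algebraMap Hol Mer (algebraMap ℂ Hol (iotaK c)) := by
  rw [← IsScalarTower.algebraMap_apply]
  exact (lvlY M hM).thetaK_algebraMap iotaK.toRingHom c

set_option synthInstance.maxHeartbeats 400000 in
set_option maxHeartbeats 1600000 in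
theorem th_yK (a : Fin 2 → ZMod M) : th M hM (yK M hM a) = algebraMap Hol Mer (holG M a) := by
  rw [yK, map_sum, holG_eq_sum, map_sum]
  refine Finset.sum_congr rfl fun b _ => ?_
  rw [map_mul, map_mul, th_algebraMap, th_zK, iotaK_zpK]

/-- Fourier inversion in `Hol`. -/
theorem holZ_eq_sum (a b : ZMod M) :
    holZ M a b = algebraMap ℂ Hol ((M : ℂ)⁻¹) *
      ∑ x : ZMod M, algebraMap ℂ Hol (zet M (-(x * b))) * holG M ![a, x] := by
  apply Subtype.ext
  funext τ
  rw [coe_holZ, holZfun_eq_sum]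
  show _ = (M : ℂ)⁻¹ * ((∑ x : ZMod M, algebraMap ℂ Hol (zet M (-(x * b))) * holG M ![a, x] : Hol) :
    ℍ → ℂ) τ
  rw [AddSubmonoidClass.coe_finsetSum, Finset.sum_apply]
  rfl

theorem coe_JK : ((JK M hM : (lvlY M hM).FK Kb) : LaurentSeries Kb) = coeffEmb Kb (qExpand ℚ M jq) :=
  rfl

theorem coe_zK (a b : ZMod M) :
    ((zK M hM a b : (lvlY M hM).FK Kb) : LaurentSeries Kb) = coeffEmb Kb (genZ M a b) := rfl

set_option synthInstance.maxHeartbeats 400000 in
set_option maxHeartbeats 1600000 in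
/-- Fourier inversion (`Y.holZfun_eq_sum`). -/
theorem zK_eq_sum (a b : ZMod M) :
    zK M hM a b = algebraMap Kb _ ((M : Kb)⁻¹) *
      ∑ x : ZMod M, algebraMap Kb _ (zpK M (-(x * b))) * yK M hM ![a, x] := by
  apply (th M hM).injective
  rw [th_zK, holZ_eq_sum, map_mul, map_mul, th_algebraMap, map_sum, map_sum, map_inv₀ iotaK,
    map_natCast iotaK]
  congr 1
  refine Finset.sum_congr rfl fun x _ => ?_
  rw [map_mul, map_mul, th_algebraMap, th_yK, iotaK_zpK]

theorem yK_neg (a : Fin 2 → ZMod M) : yK M hM (-a) = yK M hM a := by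
  apply (th M hM).injective
  rw [th_yK, th_yK]
  congr 1
  apply Subtype.ext
  exact holGfun_neg M a

omit [NeZero M] in
include hM in
theorem one_ne_neg_one_zmod : (1 : ZMod M) ≠ -1 := by
  intro h
  have h1 : ((2 : ℕ) : ZMod M) = 0 := by
    push_cast
    linear_combination h
  rw [ZMod.natCast_eq_zero_iff] at h1
  have := Nat.le_of_dvd (by norm_num) h1
  omega

/-- the coefficient of `t^(1-M)`. -/
theorem coeff_yK (a : Fin 2 → ZMod M) :
    ((yK M hM a : (lvlY M hM).FK Kb) : LaurentSeries Kb).coeff (1 - (M : ℤ)) =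
      (if a 0 = 1 then zpK M (a 1) else 0) + (if a 0 = -1 then zpK M (-(a 1)) else 0) := by
  have hne := one_ne_neg_one_zmod M hM
  have h1 : ∀ b : ZMod M, ((algebraMap Kb _ (zpK M (a 1 * b)) * zK M hM (a 0) b :
      (lvlY M hM).FK Kb) : LaurentSeries Kb).coeff (1 - (M : ℤ)) =
      zpK M (a 1 * b) * (if (a 0 = 1 ∧ b = 1) ∨ (a 0 = -1 ∧ b = -1) then 1 else 0) := by
    intro b
    have h2 : ((algebraMap Kb _ (zpK M (a 1 * b)) * zK M hM (a 0) b :
        (lvlY M hM).FK Kb) : LaurentSeries Kb) =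
        zpK M (a 1 * b) • coeffEmb Kb (genZ M (a 0) b) := by
      rw [← HahnSeries.C_mul_eq_smul]
      have h4 : ((algebraMap Kb ((lvlY M hM).FK Kb) (zpK M (a 1 * b)) : (lvlY M hM).FK Kb) :
          LaurentSeries Kb) = HahnSeries.C (zpK M (a 1 * b)) := by
        show algebraMap Kb (LaurentSeries Kb) (zpK M (a 1 * b)) = _
        rw [algebraMap_laurentSeries_eq_single]
        rfl
      rw [← h4]
      rfl
    have h3 := coeff_genZ M (a 0) b 1 (by omega)
    rw [Nat.cast_one] at h3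
    rw [h2, HahnSeries.coeff_smul, smul_eq_mul, coeffEmb, coeffMap_coeff, h3, zCoeff_one M hM]
    split_ifs <;> simp
  rw [yK, AddSubmonoidClass.coe_finsetSum, HahnSeries.coeff_sum, Finset.sum_congr rfl fun b _ => h1 b]
  by_cases h0 : a 0 = 1
  · have h0' : a 0 ≠ -1 := h0 ▸ hne
    simp only [h0, true_and, hne, false_and, or_false, if_true, if_false, add_zero]
    rw [Finset.sum_eq_single 1]
    · simp
    · intro b _ hb
      rw [if_neg hb, mul_zero]
    · intro h
      exact absurd (Finset.mem_univ _) h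
  · by_cases h0' : a 0 = -1
    · simp only [h0', hne.symm, false_and, true_and, false_or, if_true, if_false, zero_add]
      rw [Finset.sum_eq_single (-1)]
      · simp
      · intro b _ hb
        rw [if_neg hb, mul_zero]
      · intro h
        exact absurd (Finset.mem_univ _) h
    · simp [h0, h0']

/-- **separation.** -/
theorem eq_or_eq_neg_of_yK_eq (x : ZMod M) (a : Fin 2 → ZMod M)
    (h : yK M hM a = yK M hM ![1, x]) : a = ![1, x] ∨ a = -![1, x] := by
  have hne := one_ne_neg_one_zmod M hM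
  have h1 := coeff_yK M hM a
  rw [h, coeff_yK] at h1
  simp only [Matrix.cons_val_zero, Matrix.cons_val_one, if_true, hne, if_false, add_zero] at h1
  by_cases h0 : a 0 = 1
  · have h0' : a 0 ≠ -1 := h0 ▸ hne
    rw [if_pos h0, if_neg h0', add_zero] at h1
    left
    funext i
    fin_cases i
    · exact h0
    · exact (zpK_injective M h1).symm
  · by_cases h0' : a 0 = -1
    · rw [if_neg h0, if_pos h0', zero_add] at h1
      right
      have h2 := zpK_injective M h1
      funext i
      fin_cases i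
      · simpa using h0'
      · show a 1 = -x
        rw [h2, neg_neg]
    · rw [if_neg h0, if_neg h0', add_zero] at h1
      exact absurd h1 (zpK_ne_zero M x)

end

end Fermat.Agent.S48.ModL.F
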