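import Fermat.Agent.S48.ModL.F.Cj

/-!
# S48 / MODL / F, WP [F-ALG]: algebraicity over `ℂ(j(τ))` and over `ℂ(j(Mτ))`

* `isAlgebraic_trans'`: `E = ℂ⟮b⟯`, `E' = E⟮a⟯` is algebraic over `E`; a polynomial over `ℂ⟮a⟯` killing `x` maps to a nonzero
  polynomial over `E'` (inclusion `ℂ⟮a⟯ → E'` is an injective ring hom compatible with the maps to `Mer`);
  `IsAlgebraic.trans`.
* `isAlgebraic_map'`: `Mathlib: isAlgebraic_ringHom_iff_of_comp_eq` / `IsAlgebraic.of_ringHom_of_comp_eq` with the ring isomorphism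
  `ℂ⟮a⟯ ≃ ℂ⟮φ a⟯` induced by `φ` (`IntermediateField.adjoin_map`, `IntermediateField.equivMap`), or directly: map the
  coefficients of the polynomial (model: `GAL.isAlgebraic_actMer`).
* `isAlgebraic_jMer_one`: `dn (jMer 1) = actMer S (jMer M)` (`j(z/M) = j(-M/z) = j(M (S z))`, both sides are in `Hol`:
  `jfun_isSLInvariant`), which is algebraic over `ℂ(jMer 1) = ℂ(dn (jMer M))` (`GAL.isAlgebraic_jMer`, `GAL.isAlgebraic_actMer`);
  apply `up` (`isAlgebraic_map'`, `up_dn`, `up_jMer`).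
-/

set_option autoImplicit false

open UpperHalfPlane hiding I
open Function ModularCurve CongruenceSubgroup IntermediateField
open scoped Manifold MatrixGroups
open Fermat.Agent.S24 Fermat.Agent.GAL Fermat.Agent.GAL.HeckeEquiv

namespace Fermat.Agent.S48.ModL.F

open Y

theorem isAlgebraic_trans' {a b x : Mer} (hab : IsAlgebraic ℂ⟮b⟯ a) (hx : IsAlgebraic ℂ⟮a⟯ x) :
    IsAlgebraic ℂ⟮b⟯ x := by
  let A : IntermediateField ℂ⟮b⟯ Mer := algebraicClosure ℂ⟮b⟯ Mer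
  have haA : a ∈ A := mem_algebraicClosure_iff.2 hab
  have hle : ℂ⟮a⟯ ≤ A.restrictScalars ℂ := by
    rw [adjoin_simple_le_iff]
    exact haA
  let f : ℂ⟮a⟯ →+* A := (IntermediateField.inclusion hle).toRingHom
  have hxA : IsAlgebraic A x :=
    IsAlgebraic.ringHom_of_comp_eq f (RingHom.id Mer) hx f.injective rfl
  exact IsAlgebraic.restrictScalars ℂ⟮b⟯ hxA

theorem isAlgebraic_map' (φ : Mer →ₐ[ℂ] Mer) {a x : Mer} (hx : IsAlgebraic ℂ⟮a⟯ x) :
    IsAlgebraic ℂ⟮φ a⟯ (φ x) := by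
  have hmap : (ℂ⟮a⟯).map φ = ℂ⟮φ a⟯ := by
    rw [IntermediateField.adjoin_map, Set.image_singleton]
  let f : ℂ⟮a⟯ →+* ℂ⟮φ a⟯ :=
    ((IntermediateField.equivOfEq hmap).toRingEquiv.toRingHom).comp
      (IntermediateField.equivMap ℂ⟮a⟯ φ).toRingEquiv.toRingHom
  exact IsAlgebraic.ringHom_of_comp_eq f (φ : Mer →+* Mer) hx f.injective rfl

theorem jMer_congr {d d' : ℕ} [NeZero d] [NeZero d'] (h : d = d') : jMer d = jMer d' := by
  subst h
  rfl

variable (M : ℕ) [NeZero M]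

theorem up_jMer_one : up M (jMer 1) = jMer M := by
  rw [up_jMer]
  exact jMer_congr (mul_one M)

theorem dn_jMer : dn M (jMer M) = jMer 1 := by
  rw [← up_jMer_one, dn_up]

theorem up_actMer_S_jMer : up M (actMer ModularGroup.S⁻¹ (jMer M)) = jMer 1 := by
  rw [jMer, actMer_algebraMap, jMer]
  refine up_algebraMap M _ _ fun τ => ?_
  rw [actHol_apply, inv_inv, coe_jdHol, coe_jdHol, jd, jd, scal_one]
  have h : scal M (ModularGroup.S • scal M τ) = ModularGroup.S • τ := by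
    apply UpperHalfPlane.ext
    rw [coe_scal, UpperHalfPlane.modular_S_smul, UpperHalfPlane.modular_S_smul]
    have hM : (M : ℂ) ≠ 0 := Nat.cast_ne_zero.2 (NeZero.ne M)
    have hτ : (τ : ℂ) ≠ 0 := UpperHalfPlane.ne_zero τ
    simp only [coe_scal]
    field_simp
  rw [h, jfun_isSLInvariant]

theorem isAlgebraic_jMer_one : IsAlgebraic ℂ⟮jMer M⟯ (jMer 1) := by
  have h1 : IsAlgebraic ℂ⟮jMer 1⟯ (jMer M) := isAlgebraic_jMer (N := M) (dvd_refl M)
  have h2 := isAlgebraic_map' (up M) (isAlgebraic_actMer ModularGroup.S⁻¹ h1)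
  rwa [up_actMer_S_jMer, up_jMer_one] at h2

theorem isAlgebraic_jMer_iff (x : Mer) :
    IsAlgebraic ℂ⟮jMer M⟯ x ↔ IsAlgebraic ℂ⟮jMer 1⟯ x :=
  ⟨fun h => isAlgebraic_trans' (isAlgebraic_jMer (N := M) (dvd_refl M)) h,
    fun h => isAlgebraic_trans' (isAlgebraic_jMer_one M) h⟩

theorem isAlgebraic_dn {x : Mer} (hx : IsAlgebraic ℂ⟮jMer 1⟯ x) :
    IsAlgebraic ℂ⟮jMer 1⟯ (dn M x) := by
  have h := isAlgebraic_map' (dn M) ((isAlgebraic_jMer_iff M x).2 hx)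
  rwa [dn_jMer] at h

theorem isAlgebraic_up {x : Mer} (hx : IsAlgebraic ℂ⟮jMer 1⟯ x) :
    IsAlgebraic ℂ⟮jMer 1⟯ (up M x) := by
  have h := isAlgebraic_map' (up M) hx
  rw [up_jMer_one] at h
  exact (isAlgebraic_jMer_iff M _).1 h

theorem isAlgebraic_cj (g : SL(2, ℤ)) {x : Mer} (hx : IsAlgebraic ℂ⟮jMer 1⟯ x) :
    IsAlgebraic ℂ⟮jMer 1⟯ (cj M g x) := by
  rw [cj_apply]
  exact isAlgebraic_up M (isAlgebraic_actMer g (isAlgebraic_dn M hx))

end Fermat.Agent.S48.ModL.F
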