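import Fermat.Agent.S48.ModL.Y.Inst
import Fermat.Agent.S48.ModL.AD.Range
import Fermat.Agent.GAL.HeckeEquiv.MerGL

/-!
# S48 / MODL / F, WP [F-CJ]: the conjugated action of `SL(2,ℤ)` on `Mer`

`δ = diag(M,1)`, `up u (τ) = u (M τ)`, `dn u (z) = u (z / M)`, `sc = up` as an automorphism of `Mer`,
`cj g = sc ∘ actMer g ∘ sc⁻¹`, i.e. `(cj g u)(τ) = u (τ')` where `M τ' = g⁻¹ (M τ)`.

Everything is a direct computation with `GAL.HeckeEquiv.merGL` (`merGL_merGL`, `merGL_algebraMap`,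
`merGL_congr`), `S24.scal_eq_smul : scal d τ = heckeDiagMatrix d • τ`, `actMer_algebraMap`,
`actHol_apply`; elements of `Mer` are quotients of elements of `Hol`
(`IsFractionRing.div_surjective`).
-/

set_option autoImplicit false

open UpperHalfPlane hiding I
open Function ModularCurve CongruenceSubgroup ModularForm
open scoped Manifold MatrixGroups
open Fermat.Agent.S24 Fermat.Agent.GAL Fermat.Agent.GAL.HeckeEquiv

namespace Fermat.Agent.S48.ModL.F

open Y

noncomputable section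

variable (M : ℕ) [NeZero M]

theorem det_dl_pos : 0 < (heckeDiagMatrix M).det.val := det_heckeDiagMatrix_pos M

theorem det_dl_inv_pos : 0 < ((heckeDiagMatrix M)⁻¹).det.val := by
  rw [map_inv, Units.val_inv_eq_inv_val]
  exact inv_pos.2 (det_dl_pos M)

omit [NeZero M] in
theorem merGL_one_cj (h : 0 < (1 : GL (Fin 2) ℝ).det.val) (u : Mer) : merGL 1 h u = u := by
  obtain ⟨a, b, -, rfl⟩ := IsFractionRing.div_surjective (A := Hol) u
  simp only [map_div₀, merGL_algebraMap]
  congr 2 <;>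
  · apply Subtype.ext
    funext z
    simp

/-- `(up u)(τ) = u (M τ)`. -/
def up : Mer →ₐ[ℂ] Mer := merGL (heckeDiagMatrix M) (det_dl_pos M)

/-- `(dn u)(z) = u (z / M)`. -/
def dn : Mer →ₐ[ℂ] Mer := merGL (heckeDiagMatrix M)⁻¹ (det_dl_inv_pos M)

theorem up_dn (u : Mer) : up M (dn M u) = u := by
  unfold up dn
  rw [merGL_merGL, merGL_congr (inv_mul_cancel _), merGL_one_cj]

theorem dn_up (u : Mer) : dn M (up M u) = u := by
  unfold up dn
  rw [merGL_merGL, merGL_congr (mul_inv_cancel _), merGL_one_cj]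

/-- `up` as an automorphism. -/
def sc : Mer ≃ₐ[ℂ] Mer :=
  AlgEquiv.ofAlgHom (up M) (dn M) (AlgHom.ext (up_dn M)) (AlgHom.ext (dn_up M))

/-- the conjugated action: `(cj g u)(τ) = u (τ')`, `M τ' = g⁻¹ (M τ)`. -/
def cj : SL(2, ℤ) →* (Mer ≃ₐ[ℂ] Mer) := (MulAut.conj (sc M)).toMonoidHom.comp actMer

theorem cj_apply (g : SL(2, ℤ)) (u : Mer) : cj M g u = up M (actMer g (dn M u)) := rfl

theorem dn_cj (g : SL(2, ℤ)) (u : Mer) : dn M (cj M g u) = actMer g (dn M u) := by
  rw [cj_apply, dn_up]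

theorem cj_up (g : SL(2, ℤ)) (u : Mer) : cj M g (up M u) = up M (actMer g u) := by
  rw [cj_apply, dn_up]

theorem up_algebraMap (f f' : Hol) (h : ∀ τ : ℍ, (f' : ℍ → ℂ) τ = (f : ℍ → ℂ) (scal M τ)) :
    up M (algebraMap Hol Mer f) = algebraMap Hol Mer f' := by
  unfold up
  rw [merGL_algebraMap]
  congr 1
  apply Subtype.ext
  funext τ
  rw [compGL_apply, h, scal_eq_smul]

theorem up_jMer (d : ℕ) [NeZero d] : up M (jMer d) = jMer (M * d) := by
  unfold jMer
  refine up_algebraMap M _ _ fun τ => ?_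
  rw [coe_jdHol, coe_jdHol, jd, jd]
  congr 1
  apply UpperHalfPlane.ext
  rw [coe_scal, coe_scal, coe_scal]
  push_cast
  ring

/-- computation of `cj` on holomorphic functions. -/
theorem cj_algebraMap (g : SL(2, ℤ)) (f f' : Hol)
    (h : ∀ τ τ' : ℍ, scal M τ' = g⁻¹ • scal M τ → (f : ℍ → ℂ) τ' = (f' : ℍ → ℂ) τ) :
    cj M g (algebraMap Hol Mer f) = algebraMap Hol Mer f' := by
  rw [cj_apply]
  unfold up dn
  rw [merGL_algebraMap, actMer_algebraMap, merGL_algebraMap]
  congr 1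
  apply Subtype.ext
  funext τ
  rw [compGL_apply, actHol_apply, compGL_apply]
  refine h τ _ ?_
  rw [scal_eq_smul, scal_eq_smul, smul_inv_smul]

theorem cj_jMer (g : SL(2, ℤ)) : cj M g (jMer M) = jMer M := by
  unfold jMer
  refine cj_algebraMap M g _ _ fun τ τ' h => ?_
  rw [coe_jdHol, jd, jd, h, jfun_smul]

/-- `holGfun_of_scal`. -/
theorem cj_holG (g : SL(2, ℤ)) (a : Fin 2 → ZMod M) :
    cj M g (algebraMap Hol Mer (holG M a)) = algebraMap Hol Mer (holG M (actV M a g⁻¹)) := by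
  refine cj_algebraMap M g _ _ fun τ τ' h => ?_
  rw [coe_holG, coe_holG]
  exact holGfun_of_scal M a g⁻¹ τ τ' h

/-- if `s' = δ s δ⁻¹` then `cj s' = actMer s`. -/
theorem cj_eq_actMer {s s' : SL(2, ℤ)} (h : ∀ τ : ℍ, scal M (s • τ) = s' • scal M τ) (u : Mer) :
    cj M s' u = actMer s u := by
  have hinj : Function.Injective (scal M) := by
    intro τ τ' hττ
    have h1 := congrArg (fun z : ℍ => (z : ℂ)) hττ
    simp only [coe_scal] at h1
    apply UpperHalfPlane.ext
    exact mul_left_cancel₀ (Nat.cast_ne_zero.2 (NeZero.ne M)) h1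
  obtain ⟨a, b, -, rfl⟩ := IsFractionRing.div_surjective (A := Hol) u
  have key : ∀ f : Hol, cj M s' (algebraMap Hol Mer f) = actMer s (algebraMap Hol Mer f) := by
    intro f
    rw [actMer_algebraMap]
    refine cj_algebraMap M s' _ _ fun τ τ' hτ => ?_
    rw [actHol_apply]
    have h2 : τ' = s⁻¹ • τ := by
      apply hinj
      rw [hτ]
      have h1 := h (s⁻¹ • τ)
      rw [smul_inv_smul] at h1
      rw [h1, inv_smul_smul]
    rw [h2]
  rw [map_div₀, map_div₀, key, key]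

end

end Fermat.Agent.S48.ModL.F
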