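import Fermat.Agent.S48.ModL.AD.Range
import Fermat.Agent.GAL.DescentBaseChange

/-!
# S48 / MODL / F, WP [F-DESC]: descent of generation statements from `Mer` to `L.FK K`  (any `L : Lvl`)

`I` a set of generator indices.  If `θ x ∈ ℂ(hol i : i ∈ I)` (in `Mer`) then `x ∈ K(genK i : i ∈ I)`.

PROOF.  Put `F₀' = ℚ(gen i : i ∈ I) ⊆ ℚ((q))`.
(1) `Subfield.closure (range (algebraMap ℂ Mer) ∪ genMer '' I) ≤ ((laurentBaseChange ℂ F₀').toSubfield.comap (toLaurent 1)).map (toMer 1)`
    (`Subfield.closure_le`; constants: `toMer_const`, `toLaurent_const`; generators: `L.toMer_per`, `L.toLaurent_per`,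
    `coeffEmb_mem_laurentBaseChange`).  As `θ x = toMer 1 (L.thetaPer ι x)`, `toMer 1` is injective and
    `toLaurent 1 (L.thetaPer ι x) = coeffMap ι x` (`L.toLaurent_thetaPer`): `coeffMap ι x ∈ laurentBaseChange ℂ F₀'`.
(2) `GAL.Descent.mem_laurentBaseChange_of_coeffMap_mem ι F₀' x`: `x ∈ laurentBaseChange K F₀'`.
(3) `laurentBaseChange K F₀'` is generated by the constants and the `coeffEmb K (gen i)`, `i ∈ I` (copy of `Lvl.fk_le`), hence
    `x` lies in the image of `adjoin K (genK '' I)` (copy of `Lvl.map_mem_of_gen`).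
-/

set_option autoImplicit false

open Function ModularCurve IntermediateField
open Fermat.Agent.S24 Fermat.Agent.GAL

namespace Fermat.Agent.S48.ModL.F

variable (L : Lvl) {K : Type*} [Field K] [Algebra ℚ K] (ι : K →+* ℂ)

theorem coe_mem_laurentBaseChange_of_thetaK_mem (I : Set L.ι) (x : L.FK K)
    (hx : L.thetaK ι x ∈ IntermediateField.adjoin ℂ (genMer L '' I)) :
    (x : LaurentSeries K) ∈ laurentBaseChange K (IntermediateField.adjoin ℚ (L.gen '' I)) := by
  set F₀' : IntermediateField ℚ (LaurentSeries ℚ) := IntermediateField.adjoin ℚ (L.gen '' I)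
    with hF₀'
  let S : Subfield Mer := ((laurentBaseChange ℂ F₀').toSubfield.comap (toLaurent 1)).map (toMer 1)
  have hx' : L.thetaK ι x ∈ Subfield.closure
      (Set.range (algebraMap ℂ Mer) ∪ genMer L '' I) := hx
  have hle : Subfield.closure (Set.range (algebraMap ℂ Mer) ∪ genMer L '' I) ≤ S := by
    rw [Subfield.closure_le]
    rintro y (⟨c, rfl⟩ | ⟨i, hi, rfl⟩)
    · refine ⟨algebraMap ℂ (MerPer 1) c, ?_, toMer_const 1 c⟩
      show toLaurent 1 (algebraMap ℂ (MerPer 1) c) ∈ laurentBaseChange ℂ F₀'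
      rw [toLaurent_const]
      have := (laurentBaseChange ℂ F₀').algebraMap_mem c
      rwa [algebraMap_laurentSeries_eq_single] at this
    · refine ⟨L.per i, ?_, L.toMer_per i⟩
      show toLaurent 1 (L.per i) ∈ laurentBaseChange ℂ F₀'
      rw [L.toLaurent_per]
      exact coeffEmb_mem_laurentBaseChange _ (IntermediateField.subset_adjoin _ _ ⟨i, hi, rfl⟩)
  obtain ⟨u, hu, hux⟩ := hle hx'
  have hu' : toLaurent 1 u ∈ laurentBaseChange ℂ F₀' := hu
  have hux' : u = L.thetaPer ι x := (toMer 1).injective hux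
  rw [hux', L.toLaurent_thetaPer] at hu'
  exact GAL.Descent.mem_laurentBaseChange_of_coeffMap_mem ι F₀' _ hu'

theorem mem_adjoin_genK_of_coe_mem (I : Set L.ι) (x : L.FK K)
    (hx : (x : LaurentSeries K) ∈ laurentBaseChange K (IntermediateField.adjoin ℚ (L.gen '' I))) :
    x ∈ IntermediateField.adjoin K (L.genK K '' I) := by
  let S' : Subfield (LaurentSeries K) :=
    (IntermediateField.adjoin K (L.genK K '' I)).toSubfield.map (L.FKf K).val.toRingHom
  have hK : ∀ a : K, algebraMap K (LaurentSeries K) a ∈ S' := fun a =>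
    ⟨algebraMap K (L.FK K) a, (IntermediateField.adjoin K (L.genK K '' I)).algebraMap_mem a, rfl⟩
  rw [mem_laurentBaseChange_iff] at hx
  have hle : Subfield.closure (Set.range (algebraMap K (LaurentSeries K)) ∪
      (⇑(coeffEmb K) '' ((IntermediateField.adjoin ℚ (L.gen '' I) :
        IntermediateField ℚ (LaurentSeries ℚ)) : Set (LaurentSeries ℚ)))) ≤ S' := by
    rw [Subfield.closure_le]
    rintro y (⟨a, rfl⟩ | ⟨z, hz, rfl⟩)
    · exact hK a
    · have hz' : z ∈ Subfield.closure
          (Set.range (algebraMap ℚ (LaurentSeries ℚ)) ∪ L.gen '' I) := hz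
      have : Subfield.closure (Set.range (algebraMap ℚ (LaurentSeries ℚ)) ∪ L.gen '' I)
          ≤ S'.comap (coeffEmb K) := by
        rw [Subfield.closure_le]
        rintro w (⟨r, rfl⟩ | ⟨i, hi, rfl⟩)
        · show coeffEmb K (algebraMap ℚ (LaurentSeries ℚ) r) ∈ S'
          have : coeffEmb K (algebraMap ℚ (LaurentSeries ℚ) r)
              = algebraMap K (LaurentSeries K) (algebraMap ℚ K r) := by
            rw [algebraMap_laurentSeries_eq_single, algebraMap_laurentSeries_eq_single, coeffEmb,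
              coeffMap_single]
          rw [this]; exact hK _
        · exact ⟨L.genK K i, IntermediateField.subset_adjoin _ _ ⟨i, hi, rfl⟩, rfl⟩
      exact this hz'
  obtain ⟨y, hy, hyx⟩ := hle hx
  have : y = x := Subtype.ext hyx
  rw [← this]; exact hy

theorem mem_adjoin_genK_of_thetaK_mem (I : Set L.ι) (x : L.FK K)
    (hx : L.thetaK ι x ∈ IntermediateField.adjoin ℂ (genMer L '' I)) :
    x ∈ IntermediateField.adjoin K (L.genK K '' I) :=
  mem_adjoin_genK_of_coe_mem L I x (coe_mem_laurentBaseChange_of_thetaK_mem L ι I x hx)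

end Fermat.Agent.S48.ModL.F
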