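import Fermat.Agent.S48.ModL.F.Rho

/-!
# S48 / MODL / F, WP [F-DIAM]: (F6) the diamonds and the function field of `X₀(M²)`

For `s ∈ Γ₀(M²)` and `s' = δ s δ⁻¹` (`exists_conj_of_mem_Gamma0_sq`): `th (rho s' x) = actMer s (th x)` (`th_rho_of_conj`).
* `rho_zK_of_conj`: `Y.actHol_holZ_of_mem`.
* `coe_mem_full_of_fixed`: `th x` is `Γ₀(M²)`-invariant and algebraic over `ℂ(j)` (`AD.isAlgebraic_thetaK`), so it lies in
  `ℂ(jMer 1, jMer (M²))` (`GAL.mem_adjoin_of_Gamma0_invariant`); `coe_mem_laurentBaseChange_of_thetaK_mem` with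
  `I = {idxJ 1, idxJ (M²)}`; `adjoin ℚ (gen '' I) ≤ modularFunctionFieldFull (M²)` and monotonicity of `laurentBaseChange`.
* converse `actMer_th_of_coe_mem_full`: generation principle `GAL.AD.fk_le` for the subfield of the `y ∈ Qbar((t))` …, or: the subfield of the
  `x` with `actMer s (th x) = th x` contains the constants and the `genK (inl d)`.
-/

set_option autoImplicit false

open UpperHalfPlane hiding I
open Function ModularCurve CongruenceSubgroup IntermediateField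
open scoped Manifold MatrixGroups
open Fermat.Agent.S24 Fermat.Agent.GAL

namespace Fermat.Agent.S48.ModL.F

open Y

variable (M : ℕ) [NeZero M] (hM : 2 < M) (hM4 : ¬ M ∣ 4)

theorem laurentBaseChange_mono_diam {L : Type*} [Field L] [Algebra ℚ L]
    {F₀ F₁ : IntermediateField ℚ (LaurentSeries ℚ)} (h : F₀ ≤ F₁) :
    laurentBaseChange L F₀ ≤ laurentBaseChange L F₁ := by
  rw [laurentBaseChange, IntermediateField.adjoin_le_iff]
  rintro _ ⟨y, hy, rfl⟩
  exact coeffEmb_mem_laurentBaseChange L (h hy)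

theorem rho_zK_of_conj {s s' : SL(2, ℤ)} (hs : s ∈ Gamma0 (M ^ 2))
    (h : ∀ τ : ℍ, scal M (s • τ) = s' • scal M τ) (a b : ZMod M) :
    rho M hM hM4 s' (zK M hM a b) =
      zK M hM (((s 1 1 : ℤ) : ZMod M) * a) (((s 1 1 : ℤ) : ZMod M) * b) := by
  apply (th M hM).injective
  rw [th_rho_of_conj M hM hM4 h, th_zK, th_zK, actMer_algebraMap, actHol_holZ_of_mem M s hs]

theorem rho_genK_inl_of_conj {s s' : SL(2, ℤ)} (hs : s ∈ Gamma0 (M ^ 2))
    (h : ∀ τ : ℍ, scal M (s • τ) = s' • scal M τ) (d : {d : ℕ // d ∈ (M ^ 2).divisors}) :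
    rho M hM hM4 s' ((lvlY M hM).genK Kb (Sum.inl d)) = (lvlY M hM).genK Kb (Sum.inl d) := by
  apply (th M hM).injective
  rw [th_rho_of_conj M hM hM4 h, Lvl.thetaK_genK, actMer_algebraMap]
  congr 1
  exact actHol_jdHol_of_mem isSLInvariant_jfun (Nat.dvd_of_mem_divisors d.2) hs

/-- **(F6)** the fixed field of the diamonds is the function field of `X₀(M²)`. -/
theorem coe_mem_full_of_fixed (x : (lvlY M hM).FK Kb)
    (h : ∀ s ∈ Gamma0 (M ^ 2), actMer s (th M hM x) = th M hM x) :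
    (x : LaurentSeries Kb) ∈ laurentBaseChange Kb (modularFunctionFieldFull (M ^ 2)) := by
  have halg := AD.isAlgebraic_thetaK (lvlY M hM) iotaK.toRingHom x
  have h1 := GAL.mem_adjoin_of_Gamma0_invariant (N := M ^ 2) (th M hM x) h halg
  let i1 : (lvlY M hM).ι := idxJ M 1 (one_dvd _)
  let i2 : (lvlY M hM).ι := idxJ M (M ^ 2) dvd_rfl
  let I : Set (lvlY M hM).ι := {i1, i2}
  have hI : genMer (lvlY M hM) '' I = {jMer 1, jMer (M ^ 2)} := by
    show genMer (lvlY M hM) '' {i1, i2} = _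
    rw [Set.image_pair]
    rfl
  have h2 := coe_mem_laurentBaseChange_of_thetaK_mem (lvlY M hM) iotaK.toRingHom I x
    (by rw [hI]; exact h1)
  refine laurentBaseChange_mono_diam ?_ h2
  rw [IntermediateField.adjoin_le_iff]
  rintro _ ⟨i, hi, rfl⟩
  rcases hi with rfl | rfl
  · exact jqd_mem_full (M ^ 2) (one_dvd _)
  · exact jqd_mem_full (M ^ 2) dvd_rfl

theorem actMer_th_of_coe_mem_full (x : (lvlY M hM).FK Kb)
    (hx : (x : LaurentSeries Kb) ∈ laurentBaseChange Kb (modularFunctionFieldFull (M ^ 2)))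
    (s : SL(2, ℤ)) (hs : s ∈ Gamma0 (M ^ 2)) : actMer s (th M hM x) = th M hM x := by
  let φ : (lvlY M hM).FK Kb →+* Mer := ((actMer s : Mer ≃ₐ[ℂ] Mer) : Mer →+* Mer).comp (th M hM)
  let S' : Subfield (LaurentSeries Kb) :=
    (RingHom.eqLocusField φ (th M hM)).map ((lvlY M hM).FKf Kb).val.toRingHom
  have key : ∀ y ∈ GAL.AD.FKf Kb (M ^ 2), y ∈ S' := by
    apply GAL.AD.fk_le
    · intro a
      refine ⟨algebraMap Kb ((lvlY M hM).FK Kb) a, ?_, rfl⟩
      show actMer s (th M hM (algebraMap Kb _ a)) = th M hM (algebraMap Kb _ a)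
      rw [Lvl.thetaK_algebraMap]
      exact AlgEquiv.commutes _ _
    · intro d _ hd
      refine ⟨(lvlY M hM).genK Kb (idxJ M d hd), ?_, ?_⟩
      · show actMer s (th M hM _) = th M hM _
        rw [Lvl.thetaK_genK, actMer_algebraMap]
        congr 1
        exact actHol_jdHol_of_mem isSLInvariant_jfun hd hs
      · show coeffEmb Kb (qExpand ℚ d jq) = _
        exact coeffEmb_qExpand_jq _ _
  obtain ⟨y, hy, hyx⟩ := key x hx
  have : y = x := Subtype.ext hyx
  rw [← this]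
  exact hy

end Fermat.Agent.S48.ModL.F
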