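import Fermat.Agent.S48.ModL.Y.Inst

/-!
# S48 / MODL / F, WP [F-GRP]: the group `PG M = ± Γ(M)` and conjugation by `δ = diag(M,1)`

Pure `2 × 2` integer matrix computations.
* `PG M = {g | g ∈ Γ(M) ∨ -g ∈ Γ(M)}` is normal of finite index (`Γ(M)` is: `Gamma_normal`, instance
  `FiniteIndex (Gamma M)`).
* `δ GY(M) δ⁻¹ = PG M`: for `γ = [[a,b],[c,d]] ∈ Γ₀(M)`, `δ γ δ⁻¹ = [[a, M b],[c/M, d]]` (`Y.exists_conjM`);
  if `M² ∣ c`, `d ≡ ±1 (M)` then `a d ≡ 1 (M)` gives `a ≡ d`, so `δ γ δ⁻¹ ≡ ±1`.  Conversely for `γ' = [[a,b'],[c',d]] ∈ PG M`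
  put `γ = [[a, b'/M],[M c', d]]`; the relation `scal M (γ • τ) = γ' • scal M τ` is proved as in `Y.exists_conjM`
  (`UpperHalfPlane.ext`, `coe_specialLinearGroup_apply`, `coe_scal`; cf. `RED/ES/Swap.scal_wGL_smul`).
* `mem_PG_of_actV`: `row₀ = ε₀(1,0)`; `row₀ + row₁ = ε₁(1,1)`; `row₀ - row₁ = ε₂(1,-1)`: second coordinates give `ε₁ = ε₂` and
  `row₁ = (·, ε₁)`, first coordinates `2 ε₀ = ε₁ + ε₂ = 2 ε₁`; `ε₀ = -ε₁` would give `4 = 0` in `ℤ/M`.
* `b T b⁻¹ ≡ T^(a²)` mod `Γ(M)` for `b = [[a,·],[c,·]]`, `M ∣ c`: `b T b⁻¹ = 1 + [[-ac, a²],[-c², ac]]`.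
* `S = T⁻¹ (S T⁻¹ S⁻¹) T⁻¹` and `SL(2,ℤ) = ⟨S, T⟩` (`Matrix.SpecialLinearGroup.SL2Z_generators`).
-/

set_option autoImplicit false

open UpperHalfPlane hiding I
open Function CongruenceSubgroup
open scoped MatrixGroups
open Fermat.Agent.S24

namespace Fermat.Agent.S48.ModL.F

open Y

variable (M : ℕ)

/-- `± Γ(M)`. -/
def PG : Subgroup SL(2, ℤ) where
  carrier := {g | g ∈ Gamma M ∨ -g ∈ Gamma M}
  one_mem' := Or.inl (one_mem _)
  mul_mem' := by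
    rintro a b (ha | ha) (hb | hb)
    · exact Or.inl (mul_mem ha hb)
    · exact Or.inr (by rw [← mul_neg]; exact mul_mem ha hb)
    · exact Or.inr (by rw [← neg_mul]; exact mul_mem ha hb)
    · exact Or.inl (by rw [← neg_mul_neg]; exact mul_mem ha hb)
  inv_mem' := by
    rintro a (ha | ha)
    · exact Or.inl (inv_mem ha)
    · refine Or.inr ?_
      have : -a⁻¹ = (-a)⁻¹ := by
        rw [eq_inv_iff_mul_eq_one, neg_mul_neg, inv_mul_cancel]
      rw [this]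
      exact inv_mem ha

theorem mem_PG {g : SL(2, ℤ)} : g ∈ PG M ↔ g ∈ Gamma M ∨ -g ∈ Gamma M := Iff.rfl

theorem Gamma_le_PG : Gamma M ≤ PG M := fun _ h => Or.inl h

instance normal_PG : (PG M).Normal := by
  refine ⟨fun n hn g => ?_⟩
  rcases hn with hn | hn
  · exact Or.inl ((Gamma_normal M).conj_mem n hn g)
  · refine Or.inr ?_
    have : -(g * n * g⁻¹) = g * (-n) * g⁻¹ := by rw [mul_neg, neg_mul]
    rw [this]
    exact (Gamma_normal M).conj_mem _ hn g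

instance finiteIndex_PG [NeZero M] : (PG M).FiniteIndex :=
  Subgroup.finiteIndex_of_le (Gamma_le_PG M)

theorem actV_apply (a : Fin 2 → ZMod M) (g : SL(2, ℤ)) (j : Fin 2) :
    actV M a g j = a 0 * ((g 0 j : ℤ) : ZMod M) + a 1 * ((g 1 j : ℤ) : ZMod M) := by
  simp [actV, Matrix.vecMul, dotProduct, Fin.sum_univ_two]

theorem neg_mem_Gamma_iff {g : SL(2, ℤ)} : -g ∈ Gamma M ↔ ((g 0 0 : ℤ) : ZMod M) = -1 ∧
    ((g 0 1 : ℤ) : ZMod M) = 0 ∧ ((g 1 0 : ℤ) : ZMod M) = 0 ∧ ((g 1 1 : ℤ) : ZMod M) = -1 := by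
  rw [Gamma_mem]
  simp only [Matrix.SpecialLinearGroup.coe_neg, Matrix.neg_apply, Int.cast_neg, neg_eq_zero]
  rw [neg_eq_iff_eq_neg, neg_eq_iff_eq_neg]

theorem actV_of_mem_PG {g : SL(2, ℤ)} (hg : g ∈ PG M) (a : Fin 2 → ZMod M) :
    actV M a g = a ∨ actV M a g = -a := by
  rcases hg with hg | hg
  · left
    obtain ⟨h00, h01, h10, h11⟩ := Gamma_mem.mp hg
    ext j
    rw [actV_apply]
    fin_cases j
    · simp [h00, h10]
    · simp [h01, h11]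
  · right
    obtain ⟨h00, h01, h10, h11⟩ := (neg_mem_Gamma_iff M).mp hg
    ext j
    rw [actV_apply]
    fin_cases j
    · simp [h00, h10]
    · simp [h01, h11]

/-- an element of `SL(2,ℤ)` preserving `±(1,0)`, `±(1,1)`, `±(1,-1)` is `± 1` mod `M`. -/
theorem mem_PG_of_actV (hM4 : ¬ M ∣ 4) (g : SL(2, ℤ))
    (h : ∀ x : ZMod M, actV M ![1, x] g = ![1, x] ∨ actV M ![1, x] g = -![1, x]) : g ∈ PG M := by
  have h4 : (4 : ZMod M) ≠ 0 := by
    intro h0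
    apply hM4
    have : ((4 : ℕ) : ZMod M) = 0 := by exact_mod_cast h0
    exact (ZMod.natCast_eq_zero_iff 4 M).mp this
  set A : ZMod M := ((g 0 0 : ℤ) : ZMod M) with hA
  set B : ZMod M := ((g 0 1 : ℤ) : ZMod M) with hB
  set C : ZMod M := ((g 1 0 : ℤ) : ZMod M) with hC
  set D : ZMod M := ((g 1 1 : ℤ) : ZMod M) with hD
  have key : ∀ x : ZMod M, (A + x * C = 1 ∧ B + x * D = x) ∨ (A + x * C = -1 ∧ B + x * D = -x) := by
    intro x
    rcases h x with hx | hx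
    · left
      have h0 := congrFun hx 0
      have h1 := congrFun hx 1
      rw [actV_apply] at h0 h1
      simp only [Matrix.cons_val_zero, Matrix.cons_val_one, one_mul] at h0 h1
      exact ⟨h0, h1⟩
    · right
      have h0 := congrFun hx 0
      have h1 := congrFun hx 1
      rw [actV_apply] at h0 h1
      simp only [Matrix.cons_val_zero, Matrix.cons_val_one, one_mul, Pi.neg_apply] at h0 h1
      exact ⟨h0, h1⟩
  rw [mem_PG, Gamma_mem, neg_mem_Gamma_iff]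
  rcases key 0 with ⟨a0, b0⟩ | ⟨a0, b0⟩ <;> rcases key 1 with ⟨a1, b1⟩ | ⟨a1, b1⟩ <;>
    rcases key (-1) with ⟨a2, b2⟩ | ⟨a2, b2⟩
  · left
    exact ⟨by linear_combination a0, by linear_combination b0, by linear_combination a1 - a0,
      by linear_combination b1 - b0⟩
  · exfalso; apply h4; linear_combination (-2) * (b1 + b2 - 2 * b0)
  · exfalso; apply h4; linear_combination 2 * (b1 + b2 - 2 * b0)
  · exfalso; apply h4; linear_combination (-1) * (2 * a0 - a1 - a2)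
  · exfalso; apply h4; linear_combination (2 * a0 - a1 - a2)
  · exfalso; apply h4; linear_combination (-2) * (b1 + b2 - 2 * b0)
  · exfalso; apply h4; linear_combination 2 * (b1 + b2 - 2 * b0)
  · right
    exact ⟨by linear_combination a0, by linear_combination b0, by linear_combination a1 - a0,
      by linear_combination b1 - b0⟩

variable [NeZero M]

theorem exists_conj_of_mem_GY (γ : SL(2, ℤ)) (hγ : γ ∈ GY M) :
    ∃ γ' ∈ PG M, ∀ τ : ℍ, scal M (γ • τ) = γ' • scal M τ := by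
  obtain ⟨hγ0, hd⟩ := mem_GY.mp hγ
  obtain ⟨γ', h00, h01, h10, h11, hγ'⟩ := exists_conjM M γ (Gamma0_sq_le M hγ0)
  refine ⟨γ', ?_, hγ'⟩
  have hM : (M : ℤ) ≠ 0 := Nat.cast_ne_zero.mpr (NeZero.ne M)
  have e10 : ((γ' 1 0 : ℤ) : ZMod M) = 0 := by
    rw [Gamma0_mem, ZMod.intCast_zmod_eq_zero_iff_dvd] at hγ0
    rw [ZMod.intCast_zmod_eq_zero_iff_dvd]
    obtain ⟨c, hc⟩ := hγ0
    refine ⟨c, ?_⟩
    apply mul_left_cancel₀ hM
    rw [h10, hc]
    push_cast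
    ring
  have e01 : ((γ' 0 1 : ℤ) : ZMod M) = 0 := by
    rw [h01]
    simp
  have hdet : γ' 0 0 * γ' 1 1 - γ' 0 1 * γ' 1 0 = 1 := by
    have := γ'.det_coe
    rwa [Matrix.det_fin_two] at this
  have hdet' : ((γ' 0 0 : ℤ) : ZMod M) * ((γ' 1 1 : ℤ) : ZMod M) = 1 := by
    have := congrArg (Int.cast : ℤ → ZMod M) hdet
    push_cast at this
    rw [e01, zero_mul, sub_zero] at this
    exact this
  rw [← h11] at hd
  rw [mem_PG, Gamma_mem, neg_mem_Gamma_iff]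
  rcases hd with hd | hd
  · left
    rw [hd, mul_one] at hdet'
    exact ⟨hdet', e01, e10, hd⟩
  · right
    rw [hd, mul_neg, mul_one, neg_eq_iff_eq_neg] at hdet'
    exact ⟨hdet', e01, e10, hd⟩

theorem exists_conj_of_mem_PG (γ' : SL(2, ℤ)) (hγ' : γ' ∈ PG M) :
    ∃ γ ∈ GY M, ∀ τ : ℍ, scal M (γ • τ) = γ' • scal M τ := by
  have hM : (M : ℤ) ≠ 0 := Nat.cast_ne_zero.mpr (NeZero.ne M)
  have hent : ((γ' 0 1 : ℤ) : ZMod M) = 0 ∧ ((γ' 1 0 : ℤ) : ZMod M) = 0 ∧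
      (((γ' 1 1 : ℤ) : ZMod M) = 1 ∨ ((γ' 1 1 : ℤ) : ZMod M) = -1) := by
    rw [mem_PG, Gamma_mem, neg_mem_Gamma_iff] at hγ'
    rcases hγ' with ⟨-, h1, h2, h3⟩ | ⟨-, h1, h2, h3⟩
    · exact ⟨h1, h2, Or.inl h3⟩
    · exact ⟨h1, h2, Or.inr h3⟩
  obtain ⟨h01, h10, h11⟩ := hent
  rw [ZMod.intCast_zmod_eq_zero_iff_dvd] at h01 h10
  obtain ⟨b, hb⟩ := h01
  obtain ⟨c, hc⟩ := h10
  have hdet : γ' 0 0 * γ' 1 1 - γ' 0 1 * γ' 1 0 = 1 := by
    have := γ'.det_coe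
    rwa [Matrix.det_fin_two] at this
  have hdet' : (!![γ' 0 0, b; M * γ' 1 0, γ' 1 1] : Matrix (Fin 2) (Fin 2) ℤ).det = 1 := by
    rw [Matrix.det_fin_two_of]
    rw [hb] at hdet
    linear_combination hdet
  let γ : SL(2, ℤ) := ⟨!![γ' 0 0, b; M * γ' 1 0, γ' 1 1], hdet'⟩
  have g00 : γ 0 0 = γ' 0 0 := rfl
  have g01 : γ 0 1 = b := rfl
  have g10 : γ 1 0 = M * γ' 1 0 := rfl
  have g11 : γ 1 1 = γ' 1 1 := rfl
  have hγ0 : γ ∈ Gamma0 (M ^ 2) := by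
    rw [Gamma0_mem, ZMod.intCast_zmod_eq_zero_iff_dvd, g10, hc]
    exact ⟨c, by push_cast; ring⟩
  refine ⟨γ, mem_GY.mpr ⟨hγ0, by rw [g11]; exact h11⟩, ?_⟩
  obtain ⟨γ'', k00, k01, k10, k11, hγ''⟩ := exists_conjM M γ (Gamma0_sq_le M hγ0)
  have : γ'' = γ' := by
    ext i j
    fin_cases i <;> fin_cases j
    · exact k00.trans g00
    · exact k01.trans (by rw [g01]; exact hb.symm)
    · exact mul_left_cancel₀ hM (k10.trans g10)
    · exact k11.trans g11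
  rw [← this]
  exact hγ''

/-- the diamonds: `δ Γ₀(M²) δ⁻¹ ⊆ Γ₀(M)`. -/
theorem exists_conj_of_mem_Gamma0_sq (s : SL(2, ℤ)) (hs : s ∈ Gamma0 (M ^ 2)) :
    ∃ s' ∈ Gamma0 M, s' 1 1 = s 1 1 ∧ ∀ τ : ℍ, scal M (s • τ) = s' • scal M τ := by
  obtain ⟨s', -, -, h10, h11, hs'⟩ := exists_conjM M s (Gamma0_sq_le M hs)
  refine ⟨s', ?_, h11, hs'⟩
  have hM : (M : ℤ) ≠ 0 := Nat.cast_ne_zero.mpr (NeZero.ne M)
  rw [Gamma0_mem, ZMod.intCast_zmod_eq_zero_iff_dvd] at hs ⊢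
  obtain ⟨c, hc⟩ := hs
  refine ⟨c, ?_⟩
  apply mul_left_cancel₀ hM
  rw [h10, hc]
  push_cast
  ring

omit [NeZero M] in
theorem conj_T_mul_inv_mem (b : SL(2, ℤ)) (hb : b ∈ Gamma0 M) :
    (b * ModularGroup.T * b⁻¹) * (ModularGroup.T ^ ((b 0 0) ^ 2 : ℤ))⁻¹ ∈ Gamma M := by
  have hc : ((b 1 0 : ℤ) : ZMod M) = 0 := Gamma0_mem.mp hb
  have hdet : b 0 0 * b 1 1 - b 0 1 * b 1 0 = 1 := by
    have := b.det_coe
    rwa [Matrix.det_fin_two] at this
  have key : ((b * ModularGroup.T * b⁻¹ * (ModularGroup.T ^ ((b 0 0) ^ 2 : ℤ))⁻¹ : SL(2, ℤ)) :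
      Matrix (Fin 2) (Fin 2) ℤ) = !![1 - b 0 0 * b 1 0, (b 0 0) ^ 3 * b 1 0;
        -(b 1 0) ^ 2, 1 + b 0 0 * b 1 0 + (b 0 0) ^ 2 * (b 1 0) ^ 2] := by
    rw [← zpow_neg, Matrix.SpecialLinearGroup.coe_mul, Matrix.SpecialLinearGroup.coe_mul,
      Matrix.SpecialLinearGroup.coe_mul, ModularGroup.coe_T_zpow, ModularGroup.coe_T,
      Matrix.SpecialLinearGroup.coe_inv, Matrix.adjugate_fin_two]
    ext i j
    fin_cases i <;> fin_cases j <;>
      simp only [Matrix.mul_apply, Fin.sum_univ_two, Matrix.of_apply, Matrix.cons_val_zero,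
        Matrix.cons_val_one, Matrix.cons_val', Fin.zero_eta, Fin.mk_one, Fin.isValue,
        Matrix.cons_val_fin_one]
    · linear_combination hdet
    · linear_combination (-(b 0 0) ^ 2) * hdet
    · ring
    · linear_combination hdet
  rw [Gamma_mem, key]
  simp only [Matrix.of_apply, Matrix.cons_val_zero, Matrix.cons_val_one, Matrix.cons_val',
    Matrix.cons_val_fin_one]
  push_cast
  rw [hc]
  simp

theorem normalClosure_T :
    Subgroup.normalClosure {ModularGroup.T} = (⊤ : Subgroup SL(2, ℤ)) := by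
  rw [eq_top_iff, ← SpecialLinearGroup.SL2Z_generators, Subgroup.closure_le]
  have hT : ModularGroup.T ∈ Subgroup.normalClosure {ModularGroup.T} :=
    Subgroup.subset_normalClosure (Set.mem_singleton _)
  have hS : ModularGroup.S = ModularGroup.T⁻¹ * (ModularGroup.S * ModularGroup.T⁻¹ *
      ModularGroup.S⁻¹) * ModularGroup.T⁻¹ := by
    ext i j
    simp only [Matrix.SpecialLinearGroup.coe_mul, ModularGroup.coe_T_inv, ModularGroup.coe_S,
      Matrix.SpecialLinearGroup.coe_inv, Matrix.adjugate_fin_two]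
    fin_cases i <;> fin_cases j <;> simp [Matrix.mul_apply, Fin.sum_univ_two]
  rintro x (rfl | rfl)
  · rw [hS]
    exact mul_mem (mul_mem (inv_mem hT)
      (Subgroup.normalClosure_normal.conj_mem _ (inv_mem hT) _)) (inv_mem hT)
  · exact hT

end Fermat.Agent.S48.ModL.F
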