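import Fermat.Agent.S48.ModL.AD.InvRat

/-!
# S48 / MODL / F, WP [F-LAG]: Lagrange interpolation for an arbitrary finite index subgroup

Generalisation of `S48/ModL/AD/InvRat.lean` (`conjM`, `charM`, `lagM`, `exists_separating`,
`mem_genField_of_invariant`): replace `L.G` by `Γ`, `genMer L i` by `u i`, `isAlgebraic_genMer` by `halg`, `L.sep` by `hsep`,
`genMer_i₀` by the fact that `jMer 1` is put in the generating set.  COPY the proofs (lines 60-110 and 164-344 of that file).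
-/

set_option autoImplicit false
set_option linter.unusedSectionVars false

open UpperHalfPlane hiding I
open Polynomial IntermediateField CongruenceSubgroup
open scoped MatrixGroups IntermediateField.algebraAdjoinAdjoin
open Fermat.Agent.S24 Fermat.Agent.GAL

namespace Fermat.Agent.S48.ModL.F

noncomputable section

namespace LagAux

variable (Γ : Subgroup SL(2, ℤ))

/-! ### Conjugates -/

/-- The conjugate of `h` attached to a coset. -/
def conjG (h : Mer) (c : (SL(2, ℤ) ⧸ Γ)) : Mer := actMer (Quotient.out c) h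

variable {Γ}


theorem conjG_mk {h : Mer} (hh : ∀ γ ∈ Γ, actMer γ h = h) (a : SL(2, ℤ)) :
    conjG Γ h (a : (SL(2, ℤ) ⧸ Γ)) = actMer a h := by
  obtain ⟨γ, hγ⟩ := QuotientGroup.mk_out_eq_mul Γ a
  rw [conjG, hγ, map_mul]
  show actMer a (actMer γ h) = actMer a h
  rw [hh γ γ.2]

theorem actMer_conjG {h : Mer} (hh : ∀ γ ∈ Γ, actMer γ h = h) (g : SL(2, ℤ)) (c : (SL(2, ℤ) ⧸ Γ)) :
    actMer g (conjG Γ h c) = conjG Γ h (g • c) := by
  induction c using QuotientGroup.induction_on with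
  | H a =>
    rw [MulAction.Quotient.smul_coe, smul_eq_mul, conjG_mk hh, conjG_mk hh, map_mul]
    rfl

theorem conjG_base {h : Mer} (hh : ∀ γ ∈ Γ, actMer γ h = h) :
    conjG Γ h ((1 : SL(2, ℤ)) : (SL(2, ℤ) ⧸ Γ)) = h := by
  rw [conjG_mk hh, map_one]
  rfl

theorem isAlgebraic_conjG {h : Mer} (hh : IsAlgebraic ℂ⟮jMer 1⟯ h) (c : (SL(2, ℤ) ⧸ Γ)) :
    IsAlgebraic ℂ⟮jMer 1⟯ (conjG Γ h c) := isAlgebraic_actMer _ hh

variable [Γ.FiniteIndex]

/-- a `Fintype` structure on the coset space. -/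
abbrev fintypeQ (Γ : Subgroup SL(2, ℤ)) [Γ.FiniteIndex] : Fintype (SL(2, ℤ) ⧸ Γ) := Fintype.ofFinite _

attribute [local instance] fintypeQ

open Classical in
/-- The Lagrange numerator. -/
def lagG (Γ : Subgroup SL(2, ℤ)) [Γ.FiniteIndex] (u h : Mer) : Mer[X] :=
  ∑ c : (SL(2, ℤ) ⧸ Γ), C (conjG Γ h c) * ∏ c' ∈ Finset.univ.erase c, (X - C (conjG Γ u c'))

theorem lagG_map {u h : Mer} (hu : ∀ γ ∈ Γ, actMer γ u = u)
    (hh : ∀ γ ∈ Γ, actMer γ h = h) (g : SL(2, ℤ)) :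
    (lagG Γ u h).map ((actMer g : Mer ≃ₐ[ℂ] Mer) : Mer →+* Mer) = lagG Γ u h := by
  classical
  set φ : Mer →+* Mer := ((actMer g : Mer ≃ₐ[ℂ] Mer) : Mer →+* Mer) with hφ
  have eu : ∀ c, φ (conjG Γ u c) = conjG Γ u (g • c) := fun c => actMer_conjG hu g c
  have eh : ∀ c, φ (conjG Γ h c) = conjG Γ h (g • c) := fun c => actMer_conjG hh g c
  have h1 : (lagG Γ u h).map φ = ∑ c : (SL(2, ℤ) ⧸ Γ), C (conjG Γ h (g • c)) *
      ∏ c' ∈ Finset.univ.erase c, (X - C (conjG Γ u (g • c'))) := by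
    unfold lagG
    rw [Polynomial.map_sum]
    refine Finset.sum_congr rfl fun c _ => ?_
    rw [Polynomial.map_mul, Polynomial.map_C, eh, Polynomial.map_prod]
    congr 1
    refine Finset.prod_congr (by congr) fun c' _ => ?_
    rw [Polynomial.map_sub, Polynomial.map_X, Polynomial.map_C, eu]
  rw [h1]
  unfold lagG
  refine Fintype.sum_equiv (MulAction.toPerm g)
    (fun c => C (conjG Γ h (g • c)) * ∏ c' ∈ Finset.univ.erase c, (X - C (conjG Γ u (g • c'))))
    (fun c => C (conjG Γ h c) * ∏ c' ∈ Finset.univ.erase c, (X - C (conjG Γ u c'))) (fun c => ?_)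
  simp only [MulAction.toPerm_apply]
  have h2 : ∏ c' ∈ Finset.univ.erase c, (X - C (conjG Γ u (g • c'))) =
      ∏ c' ∈ Finset.univ.erase (g • c), (X - C (conjG Γ u c')) := by
    refine Finset.prod_bij (fun c' _ => g • c') ?_ ?_ ?_ ?_
    · intro a ha
      rw [Finset.mem_erase] at ha ⊢
      exact ⟨fun h => ha.1 (smul_left_cancel g h), Finset.mem_univ _⟩
    · intro a _ b _ hab
      exact smul_left_cancel g hab
    · intro b hb
      rw [Finset.mem_erase] at hb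
      refine ⟨g⁻¹ • b, ?_, smul_inv_smul g b⟩
      rw [Finset.mem_erase]
      exact ⟨fun h => hb.1 (by rw [← h, smul_inv_smul]), Finset.mem_univ _⟩
    · intro a _
      rfl
  rw [h2]

theorem lagG_coeff_mem {u h : Mer} (hu : ∀ γ ∈ Γ, actMer γ u = u)
    (hh : ∀ γ ∈ Γ, actMer γ h = h) (hua : IsAlgebraic ℂ⟮jMer 1⟯ u)
    (hha : IsAlgebraic ℂ⟮jMer 1⟯ h) (i : ℕ) : (lagG Γ u h).coeff i ∈ ℂ⟮jMer 1⟯ := by
  classical
  apply mem_adjoin_of_invariant
  · intro g
    have h1 := congrArg (fun p => Polynomial.coeff p i) (lagG_map hu hh g)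
    simp only [coeff_map] at h1
    exact h1
  · set Ω := algebraicClosure ℂ⟮jMer 1⟯ Mer with hΩ
    have hu' : ∀ c, conjG Γ u c ∈ Ω := fun c =>
      mem_algebraicClosure_iff.mpr (isAlgebraic_conjG hua c)
    have hh' : ∀ c, conjG Γ h c ∈ Ω := fun c =>
      mem_algebraicClosure_iff.mpr (isAlgebraic_conjG hha c)
    have h1 : lagG Γ u h = (∑ c : (SL(2, ℤ) ⧸ Γ), C (⟨conjG Γ h c, hh' c⟩ : Ω) *
        ∏ c' ∈ Finset.univ.erase c, (X - C (⟨conjG Γ u c', hu' c'⟩ : Ω))).map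
          (algebraMap Ω Mer) := by
      simp only [lagG, Polynomial.map_sum, Polynomial.map_mul, Polynomial.map_prod,
        Polynomial.map_sub, Polynomial.map_X, Polynomial.map_C]
      rfl
    rw [h1, coeff_map]
    exact mem_algebraicClosure_iff.mp (Subtype.mem _)

open Classical in
theorem eval_lagG {u h : Mer} (c0 : (SL(2, ℤ) ⧸ Γ)) :
    (lagG Γ u h).eval (conjG Γ u c0) =
      conjG Γ h c0 * ∏ c' ∈ (Finset.univ.erase c0 : Finset (SL(2, ℤ) ⧸ Γ)),
        (conjG Γ u c0 - conjG Γ u c') := by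
  classical
  rw [lagG, eval_finsetSum, Finset.sum_eq_single c0]
  · rw [eval_mul, eval_C, eval_prod]
    simp
  · intro c _ hc
    rw [eval_mul, eval_prod, Finset.prod_eq_zero (i := c0)]
    · simp
    · exact Finset.mem_erase.mpr ⟨hc.symm, Finset.mem_univ _⟩
    · simp
  · intro h0
    exact absurd (Finset.mem_univ _) h0


variable (Γ) {ι : Type} [Finite ι] (u : ι → Mer)

/-- the field generated by `j` and the family. -/
def genF : IntermediateField ℂ Mer := IntermediateField.adjoin ℂ (insert (jMer 1) (Set.range u))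

theorem u_mem_genF (i : ι) : u i ∈ genF u :=
  IntermediateField.subset_adjoin ℂ _ (Set.mem_insert_of_mem _ ⟨i, rfl⟩)

theorem adjoin_jMer_one_le_genF : ℂ⟮jMer 1⟯ ≤ genF u := by
  rw [IntermediateField.adjoin_simple_le_iff]
  exact IntermediateField.subset_adjoin ℂ _ (Set.mem_insert _ _)

/-- a generic linear combination of the family separates the cosets. -/
theorem exists_separatingG (hinv : ∀ i, ∀ γ ∈ Γ, actMer γ (u i) = u i)
    (halg : ∀ i, IsAlgebraic ℂ⟮jMer 1⟯ (u i))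
    (hsep : ∀ g : SL(2, ℤ), (∀ i, actMer g (u i) = u i) → g ∈ Γ) :
    ∃ w : Mer, w ∈ genF u ∧ (∀ γ ∈ Γ, actMer γ w = w) ∧ IsAlgebraic ℂ⟮jMer 1⟯ w ∧
      ∀ c : SL(2, ℤ) ⧸ Γ, conjG Γ w c = w → c = ((1 : SL(2, ℤ)) : SL(2, ℤ) ⧸ Γ) := by
  classical
  cases nonempty_fintype ι
  let f : (SL(2, ℤ) ⧸ Γ) → ((ι → ℂ) →ₗ[ℂ] Mer) := fun c =>
    ∑ i, (LinearMap.proj i : (ι → ℂ) →ₗ[ℂ] ℂ).smulRight (conjG Γ (u i) c - u i)
  have hf : ∀ c t, f c t = ∑ i, t i • (conjG Γ (u i) c - u i) := by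
    intro c t
    simp [f, LinearMap.sum_apply]
  have hne : ∀ c : {c : SL(2, ℤ) ⧸ Γ // c ≠ ((1 : SL(2, ℤ)) : SL(2, ℤ) ⧸ Γ)},
      LinearMap.ker (f c) ≠ ⊤ := by
    rintro ⟨c, hc⟩ htop
    apply hc
    have hmem : Quotient.out c ∈ Γ := by
      apply hsep
      intro i
      have h1 : f c (Pi.single i 1) = 0 := by
        have : (Pi.single i 1 : ι → ℂ) ∈ LinearMap.ker (f c) := by rw [htop]; trivial
        exact this
      rw [hf, Finset.sum_eq_single i] at h1
      · rw [Pi.single_eq_same, one_smul, sub_eq_zero, conjG] at h1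
        exact h1
      · intro b _ hb
        rw [Pi.single_eq_of_ne hb, zero_smul]
      · intro h0
        exact absurd (Finset.mem_univ _) h0
    have h5 : ((Quotient.out c : SL(2, ℤ)) : SL(2, ℤ) ⧸ Γ) = c := Quotient.out_eq' c
    rw [← h5, QuotientGroup.eq]
    simpa using Γ.inv_mem hmem
  obtain ⟨t, ht⟩ := Submodule.exists_forall_notMem_of_forall_ne_top _ hne
  refine ⟨∑ i, t i • u i, ?_, ?_, ?_, ?_⟩
  · exact sum_mem fun i _ => (genF u).smul_mem (u_mem_genF u i)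
  · intro γ hγ
    rw [map_sum]
    refine Finset.sum_congr rfl fun i _ => ?_
    rw [map_smul, hinv i γ hγ]
  · rw [← mem_algebraicClosure_iff]
    refine sum_mem fun i _ => ?_
    rw [Algebra.smul_def]
    refine mul_mem ?_ (mem_algebraicClosure_iff.mpr (halg i))
    rw [mem_algebraicClosure_iff, IsScalarTower.algebraMap_apply ℂ ℂ⟮jMer 1⟯ Mer]
    exact isAlgebraic_algebraMap _
  · intro c hc
    by_contra hne'
    apply ht ⟨c, hne'⟩
    rw [LinearMap.mem_ker, hf]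
    simp only [smul_sub, Finset.sum_sub_distrib]
    rw [sub_eq_zero, ← hc, conjG, map_sum]
    refine Finset.sum_congr rfl fun i _ => ?_
    rw [map_smul, conjG]

end LagAux

open LagAux

attribute [local instance] LagAux.fintypeQ

theorem mem_adjoin_of_invariant_of_sep (Γ : Subgroup SL(2, ℤ)) [Γ.FiniteIndex] {ι : Type} [Finite ι]
    (u : ι → Mer) (hinv : ∀ i, ∀ γ ∈ Γ, actMer γ (u i) = u i)
    (halg : ∀ i, IsAlgebraic ℂ⟮jMer 1⟯ (u i))
    (hsep : ∀ g : SL(2, ℤ), (∀ i, actMer g (u i) = u i) → g ∈ Γ)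
    (h : Mer) (hh : ∀ γ ∈ Γ, actMer γ h = h) (hha : IsAlgebraic ℂ⟮jMer 1⟯ h) :
    h ∈ IntermediateField.adjoin ℂ (insert (jMer 1) (Set.range u)) := by
  classical
  show h ∈ genF u
  set E := genF u with hE
  obtain ⟨w, hwE, hwinv, hwalg, hwsep⟩ := exists_separatingG Γ u hinv halg hsep
  set c0 : SL(2, ℤ) ⧸ Γ := ((1 : SL(2, ℤ)) : SL(2, ℤ) ⧸ Γ) with hc0
  have hw0 : conjG Γ w c0 = w := conjG_base hwinv
  have h1inv : ∀ γ ∈ Γ, actMer γ (1 : Mer) = 1 := fun γ _ => map_one _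
  have key : ∀ z : Mer, (∀ γ ∈ Γ, actMer γ z = z) → IsAlgebraic ℂ⟮jMer 1⟯ z →
      z * ∏ c' ∈ (Finset.univ.erase c0 : Finset (SL(2, ℤ) ⧸ Γ)), (w - conjG Γ w c') ∈ E := by
    intro z hz hza
    have h2 := eval_lagG (Γ := Γ) (u := w) (h := z) c0
    rw [hw0, conjG_base hz] at h2
    rw [← h2]
    exact eval_mem_of_coeff_mem
      (fun i => adjoin_jMer_one_le_genF u (lagG_coeff_mem hwinv hz hwalg hza i)) hwE
  set D := ∏ c' ∈ (Finset.univ.erase c0 : Finset (SL(2, ℤ) ⧸ Γ)), (w - conjG Γ w c') with hD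
  have hD0 : D ≠ 0 := by
    rw [hD, Finset.prod_ne_zero_iff]
    intro c' hc'
    rw [sub_ne_zero]
    intro h3
    exact (Finset.mem_erase.mp hc').1 (hwsep c' h3.symm)
  have hDE : D ∈ E := by
    have := key 1 h1inv isAlgebraic_one
    rwa [one_mul] at this
  have := div_mem (key h hh hha) hDE
  rwa [mul_div_cancel_right₀ _ hD0] at this

end

end Fermat.Agent.S48.ModL.F
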