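import Fermat.Agent.S48.ModL.F.YK
import Fermat.Agent.S48.ModL.F.Grp
import Fermat.Agent.S48.ModL.F.Alg
import Fermat.Agent.S48.ModL.F.Lag
import Fermat.Agent.S48.ModL.F.Desc

/-!
# S48 / MODL / F, WP [F-GEN]: (F2) the function field of `Y` is generated by `J = j(Mτ)` and the Igusa family

`mem_PG_of_cj_holG`: `cj g (holG a) = holG (a g⁻¹)` (`cj_holG`); `holG a' = holG a` in `Mer` means `yK a' = yK a` (`th_yK`, injectivity of
`th`), so `a g⁻¹ = ± a` for `a = (1,x)` (`eq_or_eq_neg_of_yK_eq`) and `g⁻¹ ∈ PG M` (`mem_PG_of_actV`).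

`mem_adjoin_of_GY_invariant`: apply `mem_adjoin_of_invariant_of_sep` to `Γ = PG M`, `u a = dn (holG a)`, `h = dn v`.
 * invariance of `dn w` under `γ' ∈ PG M`, for `w` invariant under `GY M`: `actMer γ' (dn w) = dn (cj γ' w)` (`dn_cj`),
   `cj γ' w = actMer γ w = w` with `γ ∈ GY M` from `exists_conj_of_mem_PG`, `cj_eq_actMer`.  (`holG a = th (yK a)` is `GY M`-invariant:
   `Lvl.actMer_thetaK`.)
 * algebraicity: `isAlgebraic_dn`, `AD.isAlgebraic_thetaK`.
 * separation: `actMer g (dn (holG a)) = dn (cj g (holG a))`, `dn` injective, `mem_PG_of_cj_holG`.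
 Then `v = up (dn v) ∈ (adjoin ..).map up = adjoin (up '' ..)` (`IntermediateField.adjoin_map`), `up (jMer 1) = jMer M` (`up_jMer`), `up_dn`.

`adjoin_zK_eq_top`: for `x` in the function field `th x` is `GY M`-invariant and algebraic, so it lies in `ℂ(jMer M, holG a) ≤ ℂ(genMer i : i ∈ I)`,
`I = {idxJ M} ∪ range inr` (`Y.holG_eq_sum`); conclude with `mem_adjoin_genK_of_thetaK_mem`.
`adjoin_yK_eq_top`: `zK_eq_sum`.
-/

set_option autoImplicit false

open UpperHalfPlane hiding I
open Function ModularCurve CongruenceSubgroup IntermediateField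
open scoped Manifold MatrixGroups
open Fermat.Agent.S24 Fermat.Agent.GAL

namespace Fermat.Agent.S48.ModL.F

open Y

variable (M : ℕ) [NeZero M] (hM : 2 < M) (hM4 : ¬ M ∣ 4)

include hM hM4 in
theorem mem_PG_of_cj_holG (g : SL(2, ℤ))
    (h : ∀ a : Fin 2 → ZMod M,
      cj M g (algebraMap Hol Mer (holG M a)) = algebraMap Hol Mer (holG M a)) : g ∈ PG M := by
  rw [← inv_mem_iff]
  refine mem_PG_of_actV M hM4 g⁻¹ fun x => ?_
  refine eq_or_eq_neg_of_yK_eq M hM x _ ?_
  apply (th M hM).injective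
  rw [th_yK, th_yK, ← cj_holG, h]

theorem actMer_dn_of_GY_invariant {w : Mer} (hw : ∀ γ ∈ GY M, actMer γ w = w) (γ' : SL(2, ℤ))
    (hγ' : γ' ∈ PG M) : actMer γ' (dn M w) = dn M w := by
  obtain ⟨γ, hγ, hc⟩ := exists_conj_of_mem_PG M γ' hγ'
  rw [← dn_cj, cj_eq_actMer M hc, hw γ hγ]

include hM in
theorem actMer_holG_of_mem_GY (a : Fin 2 → ZMod M) (γ : SL(2, ℤ)) (hγ : γ ∈ GY M) :
    actMer γ (algebraMap Hol Mer (holG M a)) = algebraMap Hol Mer (holG M a) := by
  rw [← th_yK M hM]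
  exact (lvlY M hM).actMer_thetaK iotaK.toRingHom hγ _

include hM hM4 in
theorem mem_adjoin_of_GY_invariant (v : Mer) (hinv : ∀ γ ∈ GY M, actMer γ v = v)
    (halg : IsAlgebraic ℂ⟮jMer 1⟯ v) :
    v ∈ IntermediateField.adjoin ℂ (insert (jMer M)
      (Set.range fun a : Fin 2 → ZMod M => algebraMap Hol Mer (holG M a))) := by
  have h0 := mem_adjoin_of_invariant_of_sep (PG M)
    (fun a : Fin 2 → ZMod M => dn M (algebraMap Hol Mer (holG M a)))
    (fun a γ' hγ' => actMer_dn_of_GY_invariant M (actMer_holG_of_mem_GY M hM a) γ' hγ')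
    (fun a => isAlgebraic_dn M (by
      rw [← th_yK M hM]
      exact AD.isAlgebraic_thetaK _ _ _))
    (fun g hg => mem_PG_of_cj_holG M hM hM4 g fun a => by
      have h1 := hg a
      rw [← dn_cj] at h1
      have h2 := congrArg (up M) h1
      rwa [up_dn, up_dn] at h2)
    (dn M v) (actMer_dn_of_GY_invariant M hinv) (isAlgebraic_dn M halg)
  have h1 : up M (dn M v) ∈ (IntermediateField.adjoin ℂ (insert (jMer 1)
      (Set.range fun a : Fin 2 → ZMod M => dn M (algebraMap Hol Mer (holG M a))))).map (up M) :=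
    ⟨dn M v, h0, rfl⟩
  rw [up_dn, IntermediateField.adjoin_map] at h1
  refine IntermediateField.adjoin.mono ℂ _ _ ?_ h1
  rintro _ ⟨y, (rfl | ⟨a, rfl⟩), rfl⟩
  · rw [up_jMer_one]
    exact Set.mem_insert _ _
  · rw [up_dn]
    exact Set.mem_insert_of_mem _ ⟨a, rfl⟩

/-- the index set of `J` and the Eisenstein generators. -/
def idxSet : Set (Idx M) :=
  insert (idxJ M M (Dvd.intro_left M (by ring))) (Set.range Sum.inr)

include hM4 in
theorem adjoin_zK_eq_top :
    IntermediateField.adjoin Kb (insert (JK M hM)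
      (Set.range fun x : ZMod M × ZMod M => zK M hM x.1 x.2)) = ⊤ := by
  rw [eq_top_iff]
  intro x _
  have h1 := mem_adjoin_of_GY_invariant M hM hM4 (th M hM x)
    (fun γ hγ => (lvlY M hM).actMer_thetaK iotaK.toRingHom hγ x)
    (AD.isAlgebraic_thetaK _ _ _)
  have hle : IntermediateField.adjoin ℂ (insert (jMer M)
      (Set.range fun a : Fin 2 → ZMod M => algebraMap Hol Mer (holG M a))) ≤
      IntermediateField.adjoin ℂ (genMer (lvlY M hM) '' idxSet M) := by
    rw [IntermediateField.adjoin_le_iff]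
    rintro _ (rfl | ⟨a, rfl⟩)
    · exact IntermediateField.subset_adjoin ℂ _ ⟨_, Set.mem_insert _ _, rfl⟩
    · show algebraMap Hol Mer (holG M a) ∈ _
      rw [holG_eq_sum, map_sum]
      refine sum_mem fun b _ => ?_
      rw [map_mul, ← IsScalarTower.algebraMap_apply]
      refine mul_mem (IntermediateField.algebraMap_mem _ _) ?_
      exact IntermediateField.subset_adjoin ℂ _
        ⟨Sum.inr (a 0, b), Set.mem_insert_of_mem _ ⟨_, rfl⟩, rfl⟩
  have h2 := mem_adjoin_genK_of_thetaK_mem (lvlY M hM) iotaK.toRingHom (idxSet M) x (hle h1)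
  refine IntermediateField.adjoin.mono Kb _ _ ?_ h2
  rintro _ ⟨i, (rfl | ⟨y, rfl⟩), rfl⟩
  · exact Set.mem_insert _ _
  · exact Set.mem_insert_of_mem _ ⟨y, rfl⟩

include hM4 in
/-- **(F2)** -/
theorem adjoin_yK_eq_top :
    IntermediateField.adjoin Kb (insert (JK M hM) (Set.range (yK M hM))) = ⊤ := by
  rw [eq_top_iff, ← adjoin_zK_eq_top M hM hM4, IntermediateField.adjoin_le_iff]
  rintro _ (rfl | ⟨y, rfl⟩)
  · exact IntermediateField.subset_adjoin Kb _ (Set.mem_insert _ _)
  · show zK M hM y.1 y.2 ∈ _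
    rw [zK_eq_sum]
    refine mul_mem (IntermediateField.algebraMap_mem _ _) (sum_mem fun x _ => ?_)
    refine mul_mem (IntermediateField.algebraMap_mem _ _) ?_
    exact IntermediateField.subset_adjoin Kb _ (Set.mem_insert_of_mem _ ⟨_, rfl⟩)

include hM4 in
/-- generation principle: a subfield containing the constants, `J` and the Igusa family is everything. -/
theorem mem_subfield_of_yK (S : Subfield ((lvlY M hM).FK Kb))
    (hK : ∀ a : Kb, algebraMap Kb ((lvlY M hM).FK Kb) a ∈ S) (hJ : JK M hM ∈ S)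
    (hy : ∀ a, yK M hM a ∈ S) (x : (lvlY M hM).FK Kb) : x ∈ S := by
  have hx : x ∈ IntermediateField.adjoin Kb (insert (JK M hM) (Set.range (yK M hM))) := by
    rw [adjoin_yK_eq_top M hM hM4]
    trivial
  have hx' : x ∈ Subfield.closure (Set.range (algebraMap Kb ((lvlY M hM).FK Kb)) ∪
      insert (JK M hM) (Set.range (yK M hM))) := hx
  refine (Subfield.closure_le (t := S)).2 ?_ hx'
  rintro _ (⟨a, rfl⟩ | rfl | ⟨a, rfl⟩)
  · exact hK a
  · exact hJ
  · exact hy a

end Fermat.Agent.S48.ModL.F
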