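import Fermat.Agent.S48.ModL.F.Rho

/-!
# S48 / MODL / F, WP [F-JP]: (F5) the stabiliser and the orbit of `J' = j(M² τ)`

* `th (rho b J') = cj b (jMer (M²)) = cj b (up (jMer M)) = up (actMer b (jMer M))` (`up_jMer`, `cj_up`; `M * M = M ^ 2`: rewrite with
  `jMer` of equal arguments), `up` is injective; `actMer b (jMer M) = jMer M ↔ b ∈ Γ₀(M)`
  (`GAL.actMer_jMer_of_mem`; `S24.mem_Gamma0_of_jd_smul_eq`, cf. the proof of `GAL.conjM_jMer_eq_iff`).
* `rho_conj_T`: `conj_T_mul_inv_mem` + `rho_eq_of_mul_inv_mem`.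
* orbit: `g ↦ rho g J'` factors through `SL(2,ℤ) ⧸ Γ₀(M)` (`rho (g b) J' = rho g J'`), which is finite of cardinality `(Gamma0 M).index`.
-/

set_option autoImplicit false

open UpperHalfPlane hiding I
open Function ModularCurve CongruenceSubgroup IntermediateField
open scoped Manifold MatrixGroups
open Fermat.Agent.S24 Fermat.Agent.GAL

namespace Fermat.Agent.S48.ModL.F

open Y

variable (M : ℕ) [NeZero M] (hM : 2 < M) (hM4 : ¬ M ∣ 4)

theorem jMer_congr_jp {d d' : ℕ} [NeZero d] [NeZero d'] (h : d = d') : jMer d = jMer d' := by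
  subst h
  rfl

theorem actMer_jMer_eq_iff_jp (b : SL(2, ℤ)) : actMer b (jMer M) = jMer M ↔ b ∈ Gamma0 M := by
  constructor
  · intro h
    rw [jMer, actMer_algebraMap] at h
    have h2 := IsFractionRing.injective Hol Mer h
    have h3 : b⁻¹ ∈ Gamma0 M := by
      apply mem_Gamma0_of_jd_smul_eq M
      intro τ
      have h4 := congrFun (congrArg Subtype.val h2) τ
      rw [actHol_apply] at h4
      exact h4
    simpa using inv_mem h3
  · intro h
    exact actMer_jMer_of_mem dvd_rfl h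

theorem th_JpK_eq_up : th M hM (JpK M hM) = up M (jMer M) := by
  rw [th_JpK, up_jMer]
  exact jMer_congr_jp (by ring)

theorem rho_JpK_eq_iff (b : SL(2, ℤ)) : rho M hM hM4 b (JpK M hM) = JpK M hM ↔ b ∈ Gamma0 M := by
  rw [← actMer_jMer_eq_iff_jp M b, ← (th M hM).injective.eq_iff, th_rho, th_JpK_eq_up, cj_up]
  exact (up M).toRingHom.injective.eq_iff

theorem rho_conj_T (b : SL(2, ℤ)) (hb : b ∈ Gamma0 M) :
    rho M hM hM4 b * rho M hM hM4 ModularGroup.T * (rho M hM hM4 b)⁻¹ =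
      rho M hM hM4 ModularGroup.T ^ ((b 0 0) ^ 2 : ℤ) := by
  have h := rho_eq_of_mul_inv_mem M hM hM4 (conj_T_mul_inv_mem M b hb)
  rw [map_mul, map_mul, map_inv, map_zpow] at h
  exact h

theorem ncard_orbit_JpK_le :
    (Set.range fun g : SL(2, ℤ) => rho M hM hM4 g (JpK M hM)).ncard ≤ (Gamma0 M).index := by
  classical
  have : Finite (SL(2, ℤ) ⧸ Gamma0 M) := Subgroup.finite_quotient_of_finiteIndex
  let f : SL(2, ℤ) ⧸ Gamma0 M → (lvlY M hM).FK Kb :=
    fun c => rho M hM hM4 (Quotient.out c) (JpK M hM)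
  have hsub : (Set.range fun g : SL(2, ℤ) => rho M hM hM4 g (JpK M hM)) ⊆ Set.range f := by
    rintro _ ⟨g, rfl⟩
    refine ⟨(g : SL(2, ℤ) ⧸ Gamma0 M), ?_⟩
    have h1 : ((Quotient.out (g : SL(2, ℤ) ⧸ Gamma0 M) : SL(2, ℤ)) : SL(2, ℤ) ⧸ Gamma0 M) = g :=
      Quotient.out_eq' _
    rw [QuotientGroup.eq] at h1
    have h2 := (rho_JpK_eq_iff M hM hM4 _).2 h1
    rw [map_mul, map_inv, AlgEquiv.mul_apply] at h2
    have h3 := congrArg (rho M hM hM4 (Quotient.out (g : SL(2, ℤ) ⧸ Gamma0 M))) h2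
    exact h3.symm.trans
      (AlgEquiv.apply_symm_apply (rho M hM hM4 (Quotient.out (g : SL(2, ℤ) ⧸ Gamma0 M))) _)
  calc (Set.range fun g : SL(2, ℤ) => rho M hM hM4 g (JpK M hM)).ncard
      ≤ (Set.range f).ncard := Set.ncard_le_ncard hsub (Set.finite_range f)
    _ ≤ Nat.card (SL(2, ℤ) ⧸ Gamma0 M) := by
        rw [← Set.image_univ, ← Set.ncard_univ]
        exact Set.ncard_image_le Set.finite_univ
    _ = (Gamma0 M).index := rfl

/-- the image of `T` normally generates the image of `rho`. -/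
theorem normalClosure_rho_T :
    Subgroup.normalClosure
      {(⟨rho M hM hM4 ModularGroup.T, ModularGroup.T, rfl⟩ : (rho M hM hM4).range)} = ⊤ := by
  have h := Subgroup.map_normalClosure {ModularGroup.T} (rho M hM hM4).rangeRestrict
    (rho M hM hM4).rangeRestrict_surjective
  rw [normalClosure_T, Set.image_singleton] at h
  rw [← MonoidHom.range_eq_map, (MonoidHom.range_eq_top).2 (rho M hM hM4).rangeRestrict_surjective]
    at h
  exact h.symm

end Fermat.Agent.S48.ModL.F
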