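import Fermat.Agent.S48.ModL.F.Rot
import Fermat.Agent.S48.ModL.F.JP
import Fermat.Agent.S48.ModL.F.Diam
import Fermat.Agent.RED.ES.Formal

/-!
# S48 / MODL / F : interface of block [F] in the shapes used by [I] (Igusa), [G2], [H]

`GF M hM hM4 := (rho M hM hM4).range`, a finite group of `Qbar`-automorphisms of the function field of `Y`.
-/

set_option autoImplicit false

open UpperHalfPlane hiding I
open Function ModularCurve CongruenceSubgroup IntermediateField Polynomial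
open scoped Manifold MatrixGroups
open Fermat.Agent.S24 Fermat.Agent.GAL

namespace Fermat.Agent.S48.ModL.F

open Y

noncomputable section

variable (M : ℕ) [NeZero M] (hM : 2 < M) (hM4 : ¬ M ∣ 4)

/-- the finite group `SL(2,ℤ/M)/±1`, as a group of automorphisms. -/
abbrev GF : Subgroup ((lvlY M hM).FK Kb ≃ₐ[Kb] (lvlY M hM).FK Kb) := (rho M hM hM4).range

/-- the class of `g`. -/
def toGF (g : SL(2, ℤ)) : GF M hM hM4 := ⟨rho M hM hM4 g, g, rfl⟩

theorem toGF_surjective : Surjective (toGF M hM hM4) := by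
  rintro ⟨_, g, rfl⟩
  exact ⟨g, rfl⟩

theorem toGF_smul (g : SL(2, ℤ)) (x : (lvlY M hM).FK Kb) :
    toGF M hM hM4 g • x = rho M hM hM4 g x := rfl

theorem toGF_mul (g g' : SL(2, ℤ)) :
    toGF M hM hM4 (g * g') = toGF M hM hM4 g * toGF M hM hM4 g' :=
  Subtype.ext (map_mul _ _ _)

example : MulSemiringAction (GF M hM hM4) ((lvlY M hM).FK Kb) := inferInstance

instance smulCommClass_GF : SMulCommClass (GF M hM hM4) Kb ((lvlY M hM).FK Kb) :=
  ⟨fun g a x => by
    show (g : (lvlY M hM).FK Kb ≃ₐ[Kb] (lvlY M hM).FK Kb) (a • x) =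
      a • (g : (lvlY M hM).FK Kb ≃ₐ[Kb] (lvlY M hM).FK Kb) x
    rw [Algebra.smul_def, Algebra.smul_def, map_mul, AlgEquiv.commutes]⟩

example : Finite (GF M hM hM4) := inferInstance

/-- (F3) in the shape `IsRat`. -/
theorem exists_rat_of_fixed (y : (lvlY M hM).FK Kb) (h : ∀ g, rho M hM hM4 g y = y) :
    ∃ p q : Kb[X], q ≠ 0 ∧ aeval (JK M hM) q * y = aeval (JK M hM) p := by
  obtain ⟨r, s, hrs⟩ :=
    (IntermediateField.mem_adjoin_simple_iff Kb y).1 (mem_adjoin_JK_of_fixed M hM hM4 y h)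
  by_cases hs : aeval (JK M hM) s = 0
  · refine ⟨0, 1, one_ne_zero, ?_⟩
    rw [hrs, hs, div_zero]
    simp
  · refine ⟨r, s, ?_, ?_⟩
    · rintro rfl
      exact hs (map_zero _)
    · rw [hrs, mul_div_cancel₀ _ hs]

/-- (F3) for `t`-expansions. -/
theorem exists_rat_of_fixed' (y : (lvlY M hM).FK Kb) (h : ∀ g, rho M hM hM4 g y = y) :
    ∃ p q : Kb[X], q ≠ 0 ∧
      aeval (coeffEmb Kb (qExpand ℚ M jq)) q * (y : LaurentSeries Kb) =
        aeval (coeffEmb Kb (qExpand ℚ M jq)) p := by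
  obtain ⟨p, q, hq, hpq⟩ := exists_rat_of_fixed M hM hM4 y h
  refine ⟨p, q, hq, ?_⟩
  have h1 := congrArg ((lvlY M hM).FKf Kb).val hpq
  rw [map_mul, ← Polynomial.aeval_algHom_apply, ← Polynomial.aeval_algHom_apply] at h1
  exact h1

/-- (F4) with `RED.ES.rotR`. -/
theorem coe_rho_T' (x : (lvlY M hM).FK Kb) :
    ((rho M hM hM4 ModularGroup.T x : (lvlY M hM).FK Kb) : LaurentSeries Kb) =
      RED.ES.rotR (zetKu M)⁻¹ (x : LaurentSeries Kb) := by
  rw [coe_rho_T]
  rfl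

/-- (F5) -/
theorem exists_zpow_of_rho_JpK (b : SL(2, ℤ)) (hb : rho M hM hM4 b (JpK M hM) = JpK M hM) :
    ∃ m : ℤ, rho M hM hM4 b * rho M hM hM4 ModularGroup.T * (rho M hM hM4 b)⁻¹ =
      rho M hM hM4 ModularGroup.T ^ m :=
  ⟨_, rho_conj_T M hM hM4 b ((rho_JpK_eq_iff M hM hM4 b).1 hb)⟩

/-- faithfulness criterion: an element of `GF` which maps every `yK (1,x)` to itself is trivial. -/
theorem rho_eq_one_of_yK (g : SL(2, ℤ))
    (h : ∀ x : ZMod M, rho M hM hM4 g (yK M hM ![1, x]) = yK M hM ![1, x]) :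
    rho M hM hM4 g = 1 := by
  rw [rho_eq_one_iff]
  have h1 : g⁻¹ ∈ PG M := by
    refine mem_PG_of_actV M hM4 g⁻¹ fun x => ?_
    have h2 := h x
    rw [rho_yK] at h2
    exact eq_or_eq_neg_of_yK_eq M hM x _ h2
  simpa using (PG M).inv_mem h1

end

end Fermat.Agent.S48.ModL.F
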