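import Fermat.Agent.S48.ModL.F.Gen

/-!
# S48 / MODL / F, WP [F-RHO]: (F1), (F3) the action `rho` of `SL(2,ℤ)` on the function field of `Y` over `Qbar`

`th (rho g x) = cj M g (th x)`, i.e. `(rho g x)(τ) = x(τ')` with `M τ' = g⁻¹ (M τ)`.

* `cj_th_mem_range`: the set of `x` with `cj g (th x) ∈ range th` is a subfield (`Subfield.comap`) containing the constants
  (`Lvl.thetaK_algebraMap`, `AlgEquiv.commutes`), `JK` (`th_JK`, `cj_jMer`) and the `yK a` (`th_yK`, `cj_holG`); `mem_subfield_of_yK`.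
* `rho_eq_one_iff`: `⇐` `exists_conj_of_mem_PG`, `cj_eq_actMer`, `Lvl.actMer_thetaK`; `⇒` `mem_PG_of_cj_holG`.
* `mem_adjoin_JK_of_fixed`: `v = th x` satisfies `cj g v = v`, so `dn v` is `SL(2,ℤ)`-invariant (`dn_cj`) and algebraic (`isAlgebraic_dn`):
  `dn v ∈ ℂ⟮jMer 1⟯` (`GAL.mem_adjoin_of_invariant`), `v = up (dn v) ∈ ℂ⟮jMer M⟯` (`adjoin_map`, `up_jMer`);
  `mem_adjoin_genK_of_thetaK_mem` with `I = {idxJ M}`.
-/

set_option autoImplicit false

open UpperHalfPlane hiding I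
open Function ModularCurve CongruenceSubgroup IntermediateField
open scoped Manifold MatrixGroups
open Fermat.Agent.S24 Fermat.Agent.GAL

namespace Fermat.Agent.S48.ModL.F

open Y

noncomputable section

variable (M : ℕ) [NeZero M] (hM : 2 < M) (hM4 : ¬ M ∣ 4)

include hM4 in
theorem cj_th_mem_range (g : SL(2, ℤ)) (x : (lvlY M hM).FK Kb) :
    (((cj M g : Mer ≃ₐ[ℂ] Mer) : Mer →+* Mer).comp (th M hM)) x ∈ (th M hM).fieldRange := by
  have key := mem_subfield_of_yK M hM hM4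
    ((th M hM).fieldRange.comap (((cj M g : Mer ≃ₐ[ℂ] Mer) : Mer →+* Mer).comp (th M hM)))
    ?_ ?_ ?_ x
  · exact key
  · intro a
    rw [Subfield.mem_comap, RingHom.comp_apply, Lvl.thetaK_algebraMap]
    refine ⟨algebraMap Kb _ a, ?_⟩
    rw [Lvl.thetaK_algebraMap]
    exact (AlgEquiv.commutes (cj M g) _).symm
  · rw [Subfield.mem_comap, RingHom.comp_apply, th_JK]
    refine ⟨JK M hM, ?_⟩
    rw [th_JK]
    exact (cj_jMer M g).symm
  · intro a
    rw [Subfield.mem_comap, RingHom.comp_apply, th_yK]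
    refine ⟨yK M hM (actV M a g⁻¹), ?_⟩
    rw [th_yK]
    exact (cj_holG M g a).symm

/-- `rho g` as a ring endomorphism. -/
def rhoHom (g : SL(2, ℤ)) : (lvlY M hM).FK Kb →+* (lvlY M hM).FK Kb :=
  liftThrough (th M hM) (((cj M g : Mer ≃ₐ[ℂ] Mer) : Mer →+* Mer).comp (th M hM))
    (cj_th_mem_range M hM hM4 g)

theorem th_rhoHom (g : SL(2, ℤ)) (x : (lvlY M hM).FK Kb) :
    th M hM (rhoHom M hM hM4 g x) = cj M g (th M hM x) :=
  liftThrough_spec _ _ _ x

theorem rhoHom_algebraMap (g : SL(2, ℤ)) (a : Kb) :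
    rhoHom M hM hM4 g (algebraMap Kb _ a) = algebraMap Kb _ a := by
  apply (th M hM).injective
  rw [th_rhoHom, Lvl.thetaK_algebraMap]
  exact AlgEquiv.commutes _ _

theorem rhoHom_mul (g g' : SL(2, ℤ)) (x : (lvlY M hM).FK Kb) :
    rhoHom M hM hM4 (g * g') x = rhoHom M hM hM4 g (rhoHom M hM hM4 g' x) := by
  apply (th M hM).injective
  rw [th_rhoHom, th_rhoHom, th_rhoHom, map_mul, AlgEquiv.mul_apply]

theorem rhoHom_one (x : (lvlY M hM).FK Kb) : rhoHom M hM hM4 1 x = x := by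
  apply (th M hM).injective
  rw [th_rhoHom, map_one, AlgEquiv.one_apply]

/-- `rho g` as a `Qbar`-algebra endomorphism. -/
def rhoAlg (g : SL(2, ℤ)) : (lvlY M hM).FK Kb →ₐ[Kb] (lvlY M hM).FK Kb :=
  { rhoHom M hM hM4 g with commutes' := rhoHom_algebraMap M hM hM4 g }

theorem rhoAlg_apply (g : SL(2, ℤ)) (x : (lvlY M hM).FK Kb) :
    rhoAlg M hM hM4 g x = rhoHom M hM hM4 g x := rfl

/-- **(F1)** the action of `SL(2,ℤ)` on the function field of `Y`. -/
def rho : SL(2, ℤ) →* ((lvlY M hM).FK Kb ≃ₐ[Kb] (lvlY M hM).FK Kb) where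
  toFun g := AlgEquiv.ofAlgHom (rhoAlg M hM hM4 g) (rhoAlg M hM hM4 g⁻¹)
    (AlgHom.ext fun x => by
      show rhoHom M hM hM4 g (rhoHom M hM hM4 g⁻¹ x) = x
      rw [← rhoHom_mul, mul_inv_cancel, rhoHom_one])
    (AlgHom.ext fun x => by
      show rhoHom M hM hM4 g⁻¹ (rhoHom M hM hM4 g x) = x
      rw [← rhoHom_mul, inv_mul_cancel, rhoHom_one])
  map_one' := AlgEquiv.ext fun x => rhoHom_one M hM hM4 x
  map_mul' g g' := AlgEquiv.ext fun x => rhoHom_mul M hM hM4 g g' x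

theorem th_rho (g : SL(2, ℤ)) (x : (lvlY M hM).FK Kb) :
    th M hM (rho M hM hM4 g x) = cj M g (th M hM x) := th_rhoHom M hM hM4 g x

theorem rho_JK (g : SL(2, ℤ)) : rho M hM hM4 g (JK M hM) = JK M hM := by
  apply (th M hM).injective
  rw [th_rho, th_JK, cj_jMer]

theorem rho_yK (g : SL(2, ℤ)) (a : Fin 2 → ZMod M) :
    rho M hM hM4 g (yK M hM a) = yK M hM (actV M a g⁻¹) := by
  apply (th M hM).injective
  rw [th_rho, th_yK, th_yK, cj_holG]

/-- **(F3)** the kernel of `rho` is `± Γ(M)`. -/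
theorem rho_eq_one_iff (g : SL(2, ℤ)) : rho M hM hM4 g = 1 ↔ g ∈ PG M := by
  constructor
  · intro h
    refine mem_PG_of_cj_holG M hM hM4 g fun a => ?_
    rw [← th_yK M hM, ← th_rho M hM hM4, h, AlgEquiv.one_apply]
  · intro h
    obtain ⟨γ, hγ, hc⟩ := exists_conj_of_mem_PG M g h
    refine AlgEquiv.ext fun x => ?_
    apply (th M hM).injective
    rw [th_rho, cj_eq_actMer M hc, AlgEquiv.one_apply]
    exact (lvlY M hM).actMer_thetaK iotaK.toRingHom hγ x

theorem rho_eq_of_mul_inv_mem {g g' : SL(2, ℤ)} (h : g * g'⁻¹ ∈ Gamma M) :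
    rho M hM hM4 g = rho M hM hM4 g' := by
  have h1 := (rho_eq_one_iff M hM hM4 _).2 (Gamma_le_PG M h)
  rw [map_mul, map_inv, mul_inv_eq_one] at h1
  exact h1

instance finite_range_rho : Finite (rho M hM hM4).range := by
  have hker : (rho M hM hM4).ker = PG M := by
    ext g
    rw [MonoidHom.mem_ker, rho_eq_one_iff]
  have : Finite (SL(2, ℤ) ⧸ (rho M hM hM4).ker) := by
    rw [hker]
    infer_instance
  exact Finite.of_equiv _ (QuotientGroup.quotientKerEquivRange (rho M hM hM4)).toEquiv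

/-- **(F3)** the fixed field of `rho` is `Qbar(J)`. -/
theorem mem_adjoin_JK_of_fixed (x : (lvlY M hM).FK Kb) (h : ∀ g, rho M hM hM4 g x = x) :
    x ∈ Kb⟮JK M hM⟯ := by
  set v := th M hM x with hv
  have hcj : ∀ g, cj M g v = v := fun g => by rw [hv, ← th_rho M hM hM4, h]
  have hinv : ∀ g, actMer g (dn M v) = dn M v := fun g => by rw [← dn_cj, hcj]
  have halg : IsAlgebraic ℂ⟮jMer 1⟯ (dn M v) :=
    isAlgebraic_dn M (AD.isAlgebraic_thetaK (lvlY M hM) iotaK.toRingHom x)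
  have h1 : dn M v ∈ ℂ⟮jMer 1⟯ := mem_adjoin_of_invariant _ hinv halg
  have hj : ∀ (d : ℕ) [NeZero d], d = M → jMer d = jMer M := by
    intro d _ hd
    subst hd
    rfl
  have h2 : v ∈ ℂ⟮jMer M⟯ := by
    have h3 : up M (dn M v) ∈ (ℂ⟮jMer 1⟯).map (up M) := ⟨dn M v, h1, rfl⟩
    rw [up_dn, IntermediateField.adjoin_map, Set.image_singleton, up_jMer,
      hj (M * 1) (mul_one M)] at h3
    exact h3
  have h5 : ∀ i : (lvlY M hM).ι, genMer (lvlY M hM) i = jMer M →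
      x ∈ Kb⟮(lvlY M hM).genK Kb i⟯ := by
    intro i hi
    have h4 := mem_adjoin_genK_of_thetaK_mem (lvlY M hM) iotaK.toRingHom {i} x (by
      rw [Set.image_singleton, hi]
      exact h2)
    rwa [Set.image_singleton] at h4
  exact h5 (idxJ M M (Dvd.intro_left M (by ring))) rfl

/-- if `s' = δ s δ⁻¹` then `rho s'` is the action of `s` (the diamond operator for `s ∈ Γ₀(M²)`). -/
theorem th_rho_of_conj {s s' : SL(2, ℤ)} (h : ∀ τ : ℍ, scal M (s • τ) = s' • scal M τ)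
    (x : (lvlY M hM).FK Kb) : th M hM (rho M hM hM4 s' x) = actMer s (th M hM x) := by
  rw [th_rho, cj_eq_actMer M h]

end

end Fermat.Agent.S48.ModL.F
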