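import Fermat.Agent.S48.ModL.F.Rho
import Fermat.Agent.S24.Rot

/-!
# S48 / MODL / F, WP [F-ROT]: (F4) `rho T` is the rotation `t ↦ ζ⁻¹ t` on `t`-expansions

`x ↦ (rho T x : Qbar((t)))` and `x ↦ rot ζ⁻¹ x` (`S24.rotHom`) are two ring homs from the function field to `Qbar((t))`; the equaliser is
a subfield; by `adjoin_zK_eq_top` it is enough to compare them on the constants, on `JK` and on the `zK a b`.
* constants: `rot ζ (C a) = C a` (only the coefficient of `t^0`).
* `JK`: `rho_JK`, and `rot ζ⁻¹ (qExpand M f) = qExpand M f` since `ζ^M = 1` (`qExpand_coeff_mul`, `qExpand_coeff_of_not_dvd`).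
* `rho_T_zK`: `rho T (zK a b) = ζ^(-ab) zK a b`.  From `zK_eq_sum`, `rho_yK`: `actV (a,x) T⁻¹ = (a, x - a)`, reindex `x ↦ x + a`.
* `rot_zK`: `rot ζ⁻¹ (genZ a b) = ζ^(-ab) genZ a b`: `genZ = zS * qExpand M fac`, `rot` is multiplicative (`rot_mul`), fixes the second factor, and
  `zCoeff M a b n ≠ 0 → (n : ℤ/M) = a b` (`zCoeff_eq_zero_of_ne`: `n = (n/m) m ≡ a b` or `(-a)(-b)`; `n = 0` needs `a = 0`).
-/

set_option autoImplicit false

open UpperHalfPlane hiding I
open Function ModularCurve CongruenceSubgroup IntermediateField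
open scoped Manifold MatrixGroups
open Fermat.Agent.S24 Fermat.Agent.GAL

namespace Fermat.Agent.S48.ModL.F

open Y

variable (M : ℕ) [NeZero M] (hM : 2 < M) (hM4 : ¬ M ∣ 4)

theorem zCoeff_eq_zero_of_ne (a b : ZMod M) (n : ℕ) (h : (n : ZMod M) ≠ a * b) :
    zCoeff M a b n = 0 := by
  unfold zCoeff
  split_ifs with hn ha
  · exfalso
    apply h
    rw [hn, ha]
    simp
  · rfl
  · refine Finset.sum_eq_zero fun m hm => ?_
    have hmn : n / m * m = n := Nat.div_mul_cancel (Nat.dvd_of_mem_divisors hm)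
    have hcast : (n : ZMod M) = ((n / m : ℕ) : ZMod M) * ((m : ℕ) : ZMod M) := by
      rw [← Nat.cast_mul, hmn]
    rw [if_neg, if_neg, add_zero, mul_zero]
    · rintro ⟨h1, h2⟩
      apply h
      rw [hcast, h1, h2, neg_mul_neg]
    · rintro ⟨h1, h2⟩
      apply h
      rw [hcast, h1, h2]

theorem zetKu_pow : (zetKu M) ^ M = 1 :=
  Units.ext (by
    rw [Units.val_pow_eq_pow_val, Units.val_one]
    exact (isPrimitiveRoot_zetK M).pow_eq_one)

theorem zpK_natCast (m : ℕ) : zpK M (m : ZMod M) = zetK M ^ m := by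
  rw [zpK, ZMod.val_natCast, ← pow_eq_pow_mod m (isPrimitiveRoot_zetK M).pow_eq_one]

theorem zpK_neg (x : ZMod M) : zpK M (-x) = (zpK M x)⁻¹ := by
  apply eq_inv_of_mul_eq_one_left
  rw [← zpK_add, neg_add_cancel, zpK_zero]

theorem zetKu_inv_zpow_natCast (m : ℕ) :
    (((zetKu M)⁻¹ ^ (m : ℤ) : Kbˣ) : Kb) = zpK M (-(m : ZMod M)) := by
  rw [zpK_neg, zpK_natCast, zpow_natCast, inv_pow, Units.val_inv_eq_inv_val,
    Units.val_pow_eq_pow_val]
  rfl

theorem rot_coeffEmb_qExpand (f : LaurentSeries ℚ) :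
    rot (zetKu M)⁻¹ (coeffEmb Kb (qExpand ℚ M f)) = coeffEmb Kb (qExpand ℚ M f) := by
  ext n
  rw [rot_coeff]
  by_cases hn : (M : ℤ) ∣ n
  · obtain ⟨k, rfl⟩ := hn
    rw [zpow_mul, zpow_natCast, inv_pow, zetKu_pow, inv_one, one_zpow, Units.val_one, one_mul]
  · rw [coeffEmb, coeffMap_coeff, qExpand_coeff_of_not_dvd M f hn, map_zero, mul_zero]

theorem rot_zK (a b : ZMod M) :
    rot (zetKu M)⁻¹ (coeffEmb Kb (genZ M a b)) =
      algebraMap Kb (LaurentSeries Kb) (zpK M (-(a * b))) * coeffEmb Kb (genZ M a b) := by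
  rw [genZ, map_mul, rot_mul, rot_coeffEmb_qExpand, ← mul_assoc]
  congr 1
  rw [algebraMap_laurentSeries_eq_single]
  ext n
  rw [rot_coeff, HahnSeries.coeff_single_zero_mul, coeffEmb, coeffMap_coeff]
  rcases lt_or_ge n 0 with hn | hn
  · have h0 : (HahnSeries.ofPowerSeries ℤ ℚ (zS M a b)).coeff n = 0 := by
      rw [HahnSeries.ofPowerSeries_apply]
      apply HahnSeries.embDomain_of_notMem_range
      rintro ⟨m, hm⟩
      have : (m : ℤ) = n := hm
      omega
    rw [h0, map_zero, mul_zero, mul_zero]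
  · obtain ⟨m, rfl⟩ := Int.eq_ofNat_of_zero_le hn
    rw [HahnSeries.ofPowerSeries_apply_coeff, zS, PowerSeries.coeff_mk]
    by_cases hm : (m : ZMod M) = a * b
    · rw [zetKu_inv_zpow_natCast, hm]
    · rw [zCoeff_eq_zero_of_ne M a b m hm, map_zero, mul_zero, mul_zero]

theorem rho_T_zK (a b : ZMod M) :
    rho M hM hM4 ModularGroup.T (zK M hM a b) =
      algebraMap Kb _ (zpK M (-(a * b))) * zK M hM a b := by
  have hact : ∀ x : ZMod M, actV M ![a, x] ModularGroup.T⁻¹ = ![a, x - a] := by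
    intro x
    ext j
    rw [actV_apply, ModularGroup.coe_T_inv]
    fin_cases j
    · simp
    · simp
      ring
  rw [zK_eq_sum, map_mul, AlgEquiv.commutes, map_sum]
  conv_rhs => rw [mul_left_comm, Finset.mul_sum]
  congr 1
  refine (Fintype.sum_equiv (Equiv.addRight a) _ _ fun x => ?_).symm
  rw [map_mul, AlgEquiv.commutes, rho_yK, hact, Equiv.coe_addRight, add_sub_cancel_right,
    ← mul_assoc, ← map_mul, ← zpK_add]
  congr 3
  ring

/-- **(F4)** -/
theorem coe_rho_T (x : (lvlY M hM).FK Kb) :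
    ((rho M hM hM4 ModularGroup.T x : (lvlY M hM).FK Kb) : LaurentSeries Kb) =
      rot (zetKu M)⁻¹ (x : LaurentSeries Kb) := by
  have hx : x ∈ IntermediateField.adjoin Kb (insert (JK M hM)
      (Set.range fun x : ZMod M × ZMod M => zK M hM x.1 x.2)) := by
    rw [adjoin_zK_eq_top M hM hM4]
    exact IntermediateField.mem_top
  induction hx using IntermediateField.adjoin_induction with
  | mem y hy =>
    rcases hy with rfl | ⟨⟨a, b⟩, rfl⟩
    · rw [rho_JK, coe_JK, rot_coeffEmb_qExpand]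
    · simp only
      rw [rho_T_zK, coe_zK, rot_zK]
      rfl
  | algebraMap c =>
    rw [AlgEquiv.commutes]
    exact (rot_algebraMap _ c).symm
  | add y z _ _ hy hz =>
    rw [map_add, IntermediateField.coe_add, IntermediateField.coe_add, rot_add, hy, hz]
  | inv y _ hy =>
    rw [map_inv₀, IntermediateField.coe_inv, IntermediateField.coe_inv, rot_inv, hy]
  | mul y z _ _ hy hz =>
    rw [map_mul, IntermediateField.coe_mul, IntermediateField.coe_mul, rot_mul, hy, hz]

end Fermat.Agent.S48.ModL.F
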